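/-
S55, block [H]: Dirichlet's `T`-unit theorem for a number field `k` and a finite set `T` of
finite primes: the group of `T`-units is finitely generated of rank `rank k + |T|`.
Mathlib only.
-/
import Mathlib

set_option autoImplicit false

open IsDedekindDomain NumberField Module

namespace Fermat.Agent.S55.H

/-! ### Generalities on finitely generated abelian groups -/

/-- A surjection onto a projective module splits. -/
lemma nonempty_equiv_ker_prod {R M P : Type*} [Ring R] [AddCommGroup M] [AddCommGroup P]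
    [Module R M] [Module R P] [Module.Projective R P] (g : M →ₗ[R] P)
    (hg : Function.Surjective g) : Nonempty (M ≃ₗ[R] LinearMap.ker g × P) := by
  obtain ⟨l, hl⟩ := Module.projective_lifting_property g LinearMap.id hg
  have hex : Function.Exact (LinearMap.ker g).subtype g := by
    intro x
    constructor
    · intro hx; exact ⟨⟨x, hx⟩, rfl⟩
    · rintro ⟨y, rfl⟩; exact y.2
  exact ⟨(hex.splitSurjectiveEquiv (Submodule.subtype_injective _) ⟨l, hl⟩).1⟩

/-- Structure of a finitely generated abelian group: finite torsion times `ℤ^finrank`. -/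
lemma nonempty_equiv_torsion_prod (A : Type*) [AddCommGroup A] [Module.Finite ℤ A] :
    Nonempty (A ≃ₗ[ℤ] Submodule.torsion ℤ A × (Fin (finrank ℤ A) → ℤ)) := by
  obtain ⟨e⟩ := nonempty_equiv_ker_prod (Submodule.torsion ℤ A).mkQ (Submodule.mkQ_surjective _)
  have h0 : finrank ℤ (Submodule.torsion ℤ A) = 0 :=
    Module.finrank_eq_zero_iff_isTorsion.2 Submodule.torsion_isTorsion
  have h1 : finrank ℤ (A ⧸ Submodule.torsion ℤ A) = finrank ℤ A := by
    have := Submodule.finrank_quotient_add_finrank (Submodule.torsion ℤ A)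
    omega
  let b := Module.finBasis ℤ (A ⧸ Submodule.torsion ℤ A)
  let e2 : (A ⧸ Submodule.torsion ℤ A) ≃ₗ[ℤ] (Fin (finrank ℤ A) → ℤ) :=
    b.equivFun.trans (LinearEquiv.funCongrLeft ℤ ℤ (finCongr h1.symm))
  let e1 : LinearMap.ker (Submodule.torsion ℤ A).mkQ ≃ₗ[ℤ] Submodule.torsion ℤ A :=
    LinearEquiv.ofEq _ _ (Submodule.ker_mkQ _)
  exact ⟨e.trans (LinearEquiv.prodCongr e1 e2)⟩

lemma index_range_nsmul_prod (F : Type*) [AddCommGroup F] [Finite F] (n p : ℕ) (hp : p ≠ 0) :
    (nsmulAddMonoidHom (α := F × (Fin n → ℤ)) p).range.index =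
      p ^ n * Nat.card (nsmulAddMonoidHom (α := F × (Fin n → ℤ)) p).ker := by
  have h1 : (nsmulAddMonoidHom (α := F × (Fin n → ℤ)) p).range =
      (nsmulAddMonoidHom (α := F) p).range.prod
        (AddSubgroup.pi Set.univ (fun _ : Fin n => AddSubgroup.zmultiples (p : ℤ))) := by
    ext ⟨a, b⟩
    simp only [AddMonoidHom.mem_range, nsmulAddMonoidHom_apply, Prod.exists, Prod.smul_mk,
      Prod.mk.injEq, AddSubgroup.mem_prod, AddSubgroup.mem_pi, Set.mem_univ, forall_const,
      Int.mem_zmultiples_iff]
    constructor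
    · rintro ⟨x, y, rfl, rfl⟩
      exact ⟨⟨x, rfl⟩, fun i => ⟨y i, by simp⟩⟩
    · rintro ⟨⟨x, rfl⟩, h⟩
      choose y hy using h
      exact ⟨x, y, rfl, by funext i; simp [hy i]⟩
  have h2 : Nat.card (nsmulAddMonoidHom (α := F × (Fin n → ℤ)) p).ker =
      Nat.card (nsmulAddMonoidHom (α := F) p).ker := by
    apply Nat.card_congr
    refine ⟨fun x => ⟨x.1.1, ?_⟩, fun x => ⟨(x.1, 0), ?_⟩, ?_, ?_⟩
    · have := x.2
      simp only [AddMonoidHom.mem_ker, nsmulAddMonoidHom_apply] at this ⊢
      exact congrArg Prod.fst this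
    · have := x.2
      simp only [AddMonoidHom.mem_ker, nsmulAddMonoidHom_apply] at this ⊢
      simp [this]
    · rintro ⟨⟨a, b⟩, hx⟩
      simp only [AddMonoidHom.mem_ker, nsmulAddMonoidHom_apply, Prod.smul_mk, Prod.mk_eq_zero] at hx
      have hb : b = 0 := by
        funext i
        have := congrFun hx.2 i
        simpa [hp] using this
      simp [hb]
    · rintro ⟨a, ha⟩
      rfl
  rw [h1, h2, AddSubgroup.index_prod, AddSubgroup.index_pi, AddSubgroup.index_range]
  simp [Int.index_zmultiples, mul_comm]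

/-- For a finitely generated abelian group `A`: `(A : pA) = p ^ rank A * |A[p]|`. -/
theorem index_range_nsmul (A : Type*) [AddCommGroup A] [Module.Finite ℤ A] (p : ℕ) (hp : p ≠ 0) :
    (nsmulAddMonoidHom (α := A) p).range.index =
      p ^ finrank ℤ A * Nat.card (nsmulAddMonoidHom (α := A) p).ker := by
  obtain ⟨e⟩ := nonempty_equiv_torsion_prod A
  have : Finite (Submodule.torsion ℤ A) :=
    Module.finite_of_fg_torsion _ Submodule.torsion_isTorsion
  have key := index_range_nsmul_prod (Submodule.torsion ℤ A) (finrank ℤ A) p hp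
  have h1 : (nsmulAddMonoidHom (α := A) p).range.map (e.toAddEquiv : A →+ _) =
      (nsmulAddMonoidHom (α := Submodule.torsion ℤ A × (Fin (finrank ℤ A) → ℤ)) p).range := by
    ext y
    simp only [AddSubgroup.mem_map, AddMonoidHom.mem_range, nsmulAddMonoidHom_apply,
      exists_exists_eq_and]
    constructor
    · rintro ⟨x, rfl⟩
      exact ⟨e x, by simp⟩
    · rintro ⟨x, rfl⟩
      exact ⟨e.symm x, by simp⟩
  have h2 : Nat.card (nsmulAddMonoidHom (α := A) p).ker =
      Nat.card (nsmulAddMonoidHom (α := Submodule.torsion ℤ A × (Fin (finrank ℤ A) → ℤ)) p).ker := by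
    apply Nat.card_congr
    refine ⟨fun x => ⟨e x.1, ?_⟩, fun x => ⟨e.symm x.1, ?_⟩, ?_, ?_⟩
    · have := x.2
      simp only [AddMonoidHom.mem_ker, nsmulAddMonoidHom_apply] at this ⊢
      rw [← map_nsmul, this, map_zero]
    · have := x.2
      simp only [AddMonoidHom.mem_ker, nsmulAddMonoidHom_apply] at this ⊢
      rw [← map_nsmul, this, map_zero]
    · intro x; simp
    · intro x; simp
  rw [← AddSubgroup.index_map_equiv _ e.toAddEquiv, h1, key, h2]


/-! ### `T`-units -/

variable (k : Type*) [Field k] [NumberField k] (T : Finset (HeightOneSpectrum (𝓞 k)))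

/-- The group of `T`-units of `k` (Mathlib's `Set.unit`). -/
noncomputable abbrev TUnit : Subgroup kˣ := (T : Set (HeightOneSpectrum (𝓞 k))).unit k

variable {k T} in
lemma mem_TUnit_iff {x : kˣ} :
    x ∈ TUnit k T ↔ ∀ v : HeightOneSpectrum (𝓞 k), v ∉ T → v.valuation k (x : k) = 1 := by
  constructor
  · intro h v hv
    exact h v (by simpa using hv)
  · intro h v hv
    exact h v (by simpa using hv)

/-- The additive valuation vector `E_T → ℤ^T`, as a `ℤ`-linear map. -/
noncomputable def valLin : Additive (TUnit k T) →ₗ[ℤ] (T → ℤ) :=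
  AddMonoidHom.toIntLinearMap
    { toFun := fun x v =>
        Multiplicative.toAdd (v.1.valuationOfNeZero ((Additive.toMul x : TUnit k T) : kˣ))
      map_zero' := by
        funext v
        simp
      map_add' := by
        intro x y
        funext v
        simp }

variable {k T} in
@[simp] lemma valLin_apply (x : Additive (TUnit k T)) (v : T) :
    valLin k T x v =
      Multiplicative.toAdd (v.1.valuationOfNeZero ((Additive.toMul x : TUnit k T) : kˣ)) := rfl

/-- The inclusion of the units of `𝓞 k` in the `T`-units. -/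
noncomputable def unitsToTUnit : (𝓞 k)ˣ →* TUnit k T where
  toFun u := ⟨Units.map (algebraMap (𝓞 k) k : 𝓞 k →* k) u, by
    rw [mem_TUnit_iff]
    intro v _
    have := v.valuation_of_unit_eq (K := k) u
    rw [← WithZero.coe_inj, HeightOneSpectrum.valuationOfNeZero_eq] at this
    simpa using this⟩
  map_one' := by ext; simp
  map_mul' x y := by ext; simp

lemma unitsToTUnit_injective : Function.Injective (unitsToTUnit k T) := by
  intro x y h
  have h1 : ((unitsToTUnit k T x : kˣ) : k) = ((unitsToTUnit k T y : kˣ) : k) := by rw [h]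
  simp only [unitsToTUnit, MonoidHom.coe_mk, OneHom.coe_mk, Units.coe_map, MonoidHom.coe_coe] at h1
  exact Units.ext (FaithfulSMul.algebraMap_injective (𝓞 k) k h1)

/-- `ℤ`-linear version of `unitsToTUnit`. -/
noncomputable def unitsLin : Additive (𝓞 k)ˣ →ₗ[ℤ] Additive (TUnit k T) :=
  AddMonoidHom.toIntLinearMap (MonoidHom.toAdditive (unitsToTUnit k T))

lemma unitsLin_injective : Function.Injective (unitsLin k T) := by
  intro x y h
  exact unitsToTUnit_injective k T h

lemma exists_unit_of_valuation_eq_one (x : kˣ)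
    (h : ∀ v : HeightOneSpectrum (𝓞 k), v.valuation k (x : k) = 1) :
    ∃ u : (𝓞 k)ˣ, Units.map (algebraMap (𝓞 k) k : 𝓞 k →* k) u = x := by
  obtain ⟨a, ha⟩ := HeightOneSpectrum.mem_integers_of_valuation_le_one k (x : k)
    (fun v => (h v).le)
  obtain ⟨b, hb⟩ := HeightOneSpectrum.mem_integers_of_valuation_le_one k ((x⁻¹ : kˣ) : k)
    (fun v => by
      rw [Units.val_inv_eq_inv_val, map_inv₀, h v, inv_one])
  have hab : a * b = 1 := by
    apply FaithfulSMul.algebraMap_injective (𝓞 k) k
    rw [map_mul, ha, hb, map_one, Units.mul_inv]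
  refine ⟨⟨a, b, hab, by rw [mul_comm]; exact hab⟩, ?_⟩
  ext
  simpa using ha

lemma range_unitsLin : LinearMap.range (unitsLin k T) = LinearMap.ker (valLin k T) := by
  ext x
  constructor
  · rintro ⟨u, rfl⟩
    rw [LinearMap.mem_ker]
    funext v
    have := v.1.valuation_of_unit_eq (K := k) (Additive.toMul u)
    simp only [valLin_apply, Pi.zero_apply]
    change Multiplicative.toAdd (v.1.valuationOfNeZero
      (Units.map (algebraMap (𝓞 k) k : 𝓞 k →* k) (Additive.toMul u))) = 0
    rw [this]; rfl
  · intro hx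
    rw [LinearMap.mem_ker] at hx
    have hall : ∀ v : HeightOneSpectrum (𝓞 k),
        v.valuation k (((Additive.toMul x : TUnit k T) : kˣ) : k) = 1 := by
      intro v
      by_cases hv : v ∈ T
      · have h1 := congrFun hx ⟨v, hv⟩
        simp only [valLin_apply, Pi.zero_apply] at h1
        have h2 : v.valuationOfNeZero ((Additive.toMul x : TUnit k T) : kˣ) = 1 := by
          exact h1
        rw [← HeightOneSpectrum.valuationOfNeZero_eq, h2]; rfl
      · exact mem_TUnit_iff.1 (Additive.toMul x : TUnit k T).2 v hv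
    obtain ⟨u, hu⟩ := exists_unit_of_valuation_eq_one k _ hall
    refine ⟨Additive.ofMul u, ?_⟩
    change Additive.ofMul (unitsToTUnit k T u) = x
    apply Additive.toMul.injective
    exact Subtype.ext hu


/-- For every prime `v` there is a nonzero integer `a` generating a positive power of `v`. -/
lemma exists_generator_pow (v : HeightOneSpectrum (𝓞 k)) :
    ∃ (a : 𝓞 k) (h : ℕ), 0 < h ∧ a ≠ 0 ∧ Ideal.span {a} = v.asIdeal ^ h := by
  classical
  have hv0 : v.asIdeal ∈ nonZeroDivisors (Ideal (𝓞 k)) :=
    mem_nonZeroDivisors_of_ne_zero v.ne_bot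
  set h := Fintype.card (ClassGroup (𝓞 k)) with hh
  have hpos : 0 < h := Fintype.card_pos
  have hmem : v.asIdeal ^ h ∈ nonZeroDivisors (Ideal (𝓞 k)) := pow_mem hv0 h
  have h1 : ClassGroup.mk0 (⟨v.asIdeal ^ h, hmem⟩ : nonZeroDivisors (Ideal (𝓞 k))) = 1 := by
    have : (⟨v.asIdeal ^ h, hmem⟩ : nonZeroDivisors (Ideal (𝓞 k))) = ⟨v.asIdeal, hv0⟩ ^ h := by
      ext; simp
    rw [this, map_pow, hh, pow_card_eq_one]
  rw [ClassGroup.mk0_eq_one_iff] at h1
  obtain ⟨a, ha⟩ := h1
  refine ⟨a, h, hpos, ?_, ?_⟩
  · rintro rfl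
    have hz : v.asIdeal ^ h = ⊥ := by
      rw [ha]; simp
    exact v.ne_bot (pow_eq_zero_iff hpos.ne' |>.1 hz)
  · rw [ha]

/-- For every `v ∈ T` there is a `T`-unit whose valuation vector is a nonzero multiple of `e_v`. -/
lemma exists_tunit_single [DecidableEq T] (v : T) :
    ∃ (x : Additive (TUnit k T)) (c : ℤ), c ≠ 0 ∧ valLin k T x = Pi.single v c := by
  classical
  obtain ⟨a, h, hpos, ha0, ha⟩ := exists_generator_pow k v.1
  have hak : (algebraMap (𝓞 k) k a) ≠ 0 := by
    simpa using ha0
  have hval : ∀ w : HeightOneSpectrum (𝓞 k), w ≠ v.1 →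
      w.valuation k (algebraMap (𝓞 k) k a) = 1 := by
    intro w hw
    by_contra hne
    have hlt : w.valuation k (algebraMap (𝓞 k) k a) < 1 :=
      lt_of_le_of_ne (w.valuation_le_one a) hne
    rw [HeightOneSpectrum.valuation_lt_one_iff_mem] at hlt
    have h1 : Ideal.span {a} ≤ w.asIdeal := by
      rw [Ideal.span_le]; simpa using hlt
    rw [ha] at h1
    have h2 : v.1.asIdeal ≤ w.asIdeal := w.isPrime.le_of_pow_le h1
    have h3 : v.1.asIdeal = w.asIdeal :=
      (v.1.isPrime.isMaximal v.1.ne_bot).eq_of_le w.isPrime.ne_top h2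
    exact hw (HeightOneSpectrum.ext h3.symm)
  have hx : Units.mk0 _ hak ∈ TUnit k T := by
    rw [mem_TUnit_iff]
    intro w hw
    exact hval w (fun h => hw (h ▸ v.2))
  refine ⟨Additive.ofMul ⟨Units.mk0 _ hak, hx⟩,
    Multiplicative.toAdd (v.1.valuationOfNeZero (Units.mk0 _ hak)), ?_, ?_⟩
  · intro h0
    have h1 : v.1.valuationOfNeZero (Units.mk0 _ hak) = 1 := h0
    have h2 : v.1.valuation k (algebraMap (𝓞 k) k a) = 1 := by
      have := HeightOneSpectrum.valuationOfNeZero_eq v.1 (Units.mk0 _ hak)
      rw [h1] at this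
      simpa using this.symm
    have h3 : a ∈ v.1.asIdeal := by
      have : a ∈ v.1.asIdeal ^ h := by rw [← ha]; exact Ideal.mem_span_singleton_self a
      exact Ideal.pow_le_self hpos.ne' this
    rw [← HeightOneSpectrum.valuation_lt_one_iff_mem (K := k)] at h3
    exact h3.ne h2
  · funext w
    by_cases hw : w = v
    · subst hw
      simp
    · rw [Pi.single_eq_of_ne hw]
      have h1 := hval w.1 (fun h => hw (Subtype.ext h))
      have h2 : w.1.valuationOfNeZero (Units.mk0 _ hak) = 1 := by
        rw [← WithZero.coe_inj, HeightOneSpectrum.valuationOfNeZero_eq]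
        simpa using h1
      simp only [valLin_apply, toMul_ofMul]
      rw [h2]; rfl

instance tunit_finite : Module.Finite ℤ (Additive (TUnit k T)) := by
  constructor
  apply Submodule.fg_of_fg_map_of_fg_inf_ker (valLin k T)
  · exact IsNoetherian.noetherian _
  · rw [top_inf_eq, ← range_unitsLin, LinearMap.range_eq_map]
    exact Submodule.FG.map _ (Module.Finite.fg_top)

lemma finrank_ker_valLin : finrank ℤ (LinearMap.ker (valLin k T)) = Units.rank k := by
  rw [← range_unitsLin, ← Units.finrank_eq k]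
  exact (LinearEquiv.ofInjective (unitsLin k T) (unitsLin_injective k T)).finrank_eq.symm

lemma finrank_range_valLin : finrank ℤ (LinearMap.range (valLin k T)) = T.card := by
  classical
  apply le_antisymm
  · have := Submodule.finrank_le (LinearMap.range (valLin k T))
    simpa using this
  · choose x c hc hx using exists_tunit_single k T
    let b : T → LinearMap.range (valLin k T) := fun v => ⟨valLin k T (x v), LinearMap.mem_range_self _ _⟩
    have hb : LinearIndependent ℤ b := by
      apply LinearIndependent.of_comp (LinearMap.range (valLin k T)).subtype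
      rw [Fintype.linearIndependent_iff]
      intro g hg w
      have h1 := congrFun hg w
      simp only [Function.comp_apply, Submodule.subtype_apply, b, hx, Finset.sum_apply,
        Pi.smul_apply, Pi.zero_apply, smul_eq_mul] at h1
      rw [Finset.sum_eq_single w] at h1
      · simpa [hc w] using h1
      · intro v _ hv
        rw [Pi.single_eq_of_ne (Ne.symm hv)]; simp
      · intro h; exact absurd (Finset.mem_univ w) h
    have := hb.fintype_card_le_finrank
    simpa using this

/-- **Dirichlet's `T`-unit theorem** (rank). -/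
theorem finrank_tunit : finrank ℤ (Additive (TUnit k T)) = Units.rank k + T.card := by
  have h1 := Submodule.finrank_quotient_add_finrank (LinearMap.ker (valLin k T))
  rw [(LinearMap.quotKerEquivRange (valLin k T)).finrank_eq, finrank_range_valLin,
    finrank_ker_valLin] at h1
  omega


lemma index_range_pow_eq (G : Type*) [CommGroup G] (p : ℕ) :
    (powMonoidHom p : G →* G).range.index = (nsmulAddMonoidHom (α := Additive G) p).range.index := by
  have : (nsmulAddMonoidHom (α := Additive G) p).range =
      Subgroup.toAddSubgroup (powMonoidHom p : G →* G).range := by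
    ext x
    constructor
    · rintro ⟨y, rfl⟩; exact ⟨Additive.toMul y, rfl⟩
    · rintro ⟨y, hy⟩; exact ⟨Additive.ofMul y, hy⟩
  rw [this]; rfl

lemma card_ker_pow_eq (G : Type*) [CommGroup G] (p : ℕ) :
    Nat.card (powMonoidHom p : G →* G).ker = Nat.card (nsmulAddMonoidHom (α := Additive G) p).ker := by
  apply Nat.card_congr
  exact ⟨fun x => ⟨Additive.ofMul x.1, x.2⟩, fun x => ⟨Additive.toMul x.1, x.2⟩,
    fun _ => rfl, fun _ => rfl⟩

/-- `(E_T : E_T^p) = p ^ (rank k + |T|) * |E_T[p]|`. -/
theorem index_range_pow_tunit (p : ℕ) (hp : p ≠ 0) :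
    (powMonoidHom p : TUnit k T →* TUnit k T).range.index =
      p ^ (Units.rank k + T.card) * Nat.card (powMonoidHom p : TUnit k T →* TUnit k T).ker := by
  rw [index_range_pow_eq, card_ker_pow_eq, index_range_nsmul _ p hp, finrank_tunit]

variable {k T} in
lemma mem_TUnit_of_pow_eq_one {x : kˣ} {n : ℕ} (hn : n ≠ 0) (hx : x ^ n = 1) : x ∈ TUnit k T := by
  rw [mem_TUnit_iff]
  intro v _
  have h1 : (v.valuation k (x : k)) ^ n = 1 := by
    rw [← map_pow, ← Units.val_pow_eq_pow_val, hx, Units.val_one, map_one]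
  exact (pow_eq_one_iff_of_nonneg zero_le hn).1 h1

/-- The `p`-torsion of the `T`-units is the group of `p`-th roots of unity of `k`. -/
lemma card_ker_pow_tunit (p : ℕ) (hp : p ≠ 0) :
    Nat.card (powMonoidHom p : TUnit k T →* TUnit k T).ker = Nat.card (rootsOfUnity p k) := by
  apply Nat.card_congr
  refine ⟨fun x => ⟨x.1.1, ?_⟩, fun x => ⟨⟨x.1, mem_TUnit_of_pow_eq_one hp ?_⟩, ?_⟩, ?_, ?_⟩
  · have := x.2
    rw [MonoidHom.mem_ker, powMonoidHom_apply] at this
    rw [mem_rootsOfUnity]
    exact congrArg Subtype.val this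
  · exact (mem_rootsOfUnity _ _).1 x.2
  · rw [MonoidHom.mem_ker, powMonoidHom_apply]
    exact Subtype.ext ((mem_rootsOfUnity _ _).1 x.2)
  · intro x; rfl
  · intro x; rfl

/-- If `k` contains a primitive `p`-th root of unity then
`(E_T : E_T^p) = p ^ (rank k + |T| + 1)`. -/
theorem index_range_pow_tunit_of_primitiveRoot (p : ℕ) (hp : p ≠ 0) {ζ : k}
    (hζ : IsPrimitiveRoot ζ p) :
    (powMonoidHom p : TUnit k T →* TUnit k T).range.index = p ^ (Units.rank k + T.card + 1) := by
  have : NeZero p := ⟨hp⟩
  rw [index_range_pow_tunit k T p hp, card_ker_pow_tunit k T p hp, hζ.card_rootsOfUnity, pow_succ]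


/-- The torsion of the `T`-units is the torsion of the units of `𝓞 k`. -/
lemma nonempty_torsion_equiv :
    Nonempty (Submodule.torsion ℤ (Additive (TUnit k T)) ≃+ Additive (Units.torsion k)) := by
  have hmem : ∀ ζ : Units.torsion k,
      Additive.ofMul (unitsToTUnit k T ζ.1) ∈ Submodule.torsion ℤ (Additive (TUnit k T)) := by
    intro ζ
    obtain ⟨n, hn, h1⟩ := isOfFinOrder_iff_pow_eq_one.1 ((CommGroup.mem_torsion _).1 ζ.2)
    rw [Submodule.mem_torsion_iff]
    refine ⟨⟨(n : ℤ), mem_nonZeroDivisors_of_ne_zero (by exact_mod_cast hn.ne')⟩, ?_⟩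
    change (n : ℤ) • Additive.ofMul (unitsToTUnit k T ζ.1) = 0
    rw [natCast_zsmul, ← ofMul_pow, ← map_pow, h1, map_one]; rfl
  let f : Additive (Units.torsion k) →+ Submodule.torsion ℤ (Additive (TUnit k T)) :=
    { toFun := fun ζ => ⟨Additive.ofMul (unitsToTUnit k T (Additive.toMul ζ).1), hmem _⟩
      map_zero' := by
        apply Subtype.ext
        change Additive.ofMul (unitsToTUnit k T 1) = 0
        rw [map_one]; rfl
      map_add' := by
        intro a b
        apply Subtype.ext
        change Additive.ofMul (unitsToTUnit k T ((Additive.toMul a).1 * (Additive.toMul b).1)) = _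
        rw [map_mul]; rfl }
  have hinj : Function.Injective f := by
    intro a b hab
    have h1 : unitsToTUnit k T (Additive.toMul a).1 = unitsToTUnit k T (Additive.toMul b).1 :=
      congrArg (fun z => Additive.toMul z.1) hab
    exact Additive.toMul.injective (Subtype.ext (unitsToTUnit_injective k T h1))
  have hsurj : Function.Surjective f := by
    rintro ⟨x, hx⟩
    rw [Submodule.mem_torsion_iff] at hx
    obtain ⟨⟨n, hn⟩, hnx⟩ := hx
    have hn0 : n ≠ 0 := nonZeroDivisors.ne_zero hn
    have hnx' : n • x = 0 := hnx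
    have h1 : ((Additive.toMul x : TUnit k T) : kˣ) ^ n.natAbs = 1 := by
      have h2 : (Additive.toMul x : TUnit k T) ^ n = 1 := hnx'
      have h3 : ((Additive.toMul x : TUnit k T) : kˣ) ^ n = 1 := by
        rw [← Subgroup.coe_zpow, h2]; rfl
      rcases Int.natAbs_eq n with h | h
      · rw [h] at h3; simpa using h3
      · rw [h] at h3; simpa using h3
    have hna : n.natAbs ≠ 0 := Int.natAbs_ne_zero.2 hn0
    have hall : ∀ v : HeightOneSpectrum (𝓞 k),
        v.valuation k (((Additive.toMul x : TUnit k T) : kˣ) : k) = 1 := by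
      intro v
      have h2 : (v.valuation k (((Additive.toMul x : TUnit k T) : kˣ) : k)) ^ n.natAbs = 1 := by
        rw [← map_pow, ← Units.val_pow_eq_pow_val, h1, Units.val_one, map_one]
      exact (pow_eq_one_iff_of_nonneg zero_le hna).1 h2
    obtain ⟨u, hu⟩ := exists_unit_of_valuation_eq_one k _ hall
    have hut : u ∈ Units.torsion k := by
      rw [Units.torsion, CommGroup.mem_torsion, isOfFinOrder_iff_pow_eq_one]
      refine ⟨n.natAbs, Nat.pos_of_ne_zero hna, ?_⟩
      have h4 : Units.map (algebraMap (𝓞 k) k : 𝓞 k →* k) (u ^ n.natAbs) = 1 := by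
        rw [map_pow, hu, h1]
      have h5 : unitsToTUnit k T (u ^ n.natAbs) = unitsToTUnit k T 1 := by
        rw [map_one]; exact Subtype.ext h4
      exact unitsToTUnit_injective k T h5
    refine ⟨Additive.ofMul ⟨u, hut⟩, ?_⟩
    apply Subtype.ext
    change Additive.ofMul (unitsToTUnit k T u) = x
    apply Additive.toMul.injective
    exact Subtype.ext hu
  exact ⟨(AddEquiv.ofBijective f ⟨hinj, hsurj⟩).symm⟩

/-- **Dirichlet's `T`-unit theorem** (structure). -/
theorem tunit_equiv :
    Nonempty (Additive (TUnit k T) ≃+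
      Additive (Units.torsion k) × (Fin (Units.rank k + T.card) → ℤ)) := by
  obtain ⟨e⟩ := nonempty_equiv_torsion_prod (Additive (TUnit k T))
  obtain ⟨e1⟩ := nonempty_torsion_equiv k T
  let e2 : (Fin (finrank ℤ (Additive (TUnit k T))) → ℤ) ≃+ (Fin (Units.rank k + T.card) → ℤ) :=
    (LinearEquiv.funCongrLeft ℤ ℤ (finCongr (finrank_tunit k T).symm)).toAddEquiv
  exact ⟨e.toAddEquiv.trans (AddEquiv.prodCongr e1 e2)⟩

end Fermat.Agent.S55.H
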