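import Fermat.Agent.S55.H.U.Defs

/-!
# S55, block [H] (Hasse norm theorem for cyclic extensions of prime degree): definitions

Everything is completion-free: local conditions at a finite place `v` of a number field `K` are
expressed by approximation inside `Kˣ`.
-/

set_option autoImplicit false
set_option linter.unusedSectionVars false

namespace Fermat.Agent.S55.H

open NumberField IsDedekindDomain

/-- The finite places of a number field. -/
abbrev Pl (K : Type*) [Field K] [NumberField K] : Type _ := HeightOneSpectrum (𝓞 K)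

section

variable {K : Type*} [Field K] [NumberField K]

theorem val_eq_one_of_sub_one_lt (v : Pl K) {x : K} (h : v.valuation K (x - 1) < 1) :
    v.valuation K x = 1 := by
  have h1 : v.valuation K (x - 1) < v.valuation K 1 := by simpa using h
  have := Valuation.map_add_eq_of_lt_left (v.valuation K) h1
  simpa using this

theorem exp_neg_natCast_le_one (n : ℕ) :
    WithZero.exp (-(n : ℤ)) ≤ (1 : WithZero (Multiplicative ℤ)) := by
  rw [← WithZero.exp_zero, WithZero.exp_le_exp]; omega

/-- `nearOne v n = Kˣ ∩ U_v^(n+1)`: the elements `x` with `v (x - 1) < exp (-n)`. -/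
def nearOne (v : Pl K) (n : ℕ) : Subgroup Kˣ where
  carrier := {x | v.valuation K ((x : K) - 1) < WithZero.exp (-(n : ℤ))}
  one_mem' := by simp
  mul_mem' := by
    intro x y hx hy
    simp only [Set.mem_ofPred_eq] at hx hy ⊢
    have hx1 : v.valuation K (x : K) = 1 :=
      val_eq_one_of_sub_one_lt v (lt_of_lt_of_le hx (exp_neg_natCast_le_one n))
    have : ((x * y : Kˣ) : K) - 1 = (x : K) * ((y : K) - 1) + ((x : K) - 1) := by
      push_cast; ring
    rw [this]
    refine lt_of_le_of_lt (Valuation.map_add _ _ _) (max_lt ?_ hx)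
    rw [map_mul, hx1, one_mul]; exact hy
  inv_mem' := by
    intro x hx
    simp only [Set.mem_ofPred_eq] at hx ⊢
    have hx1 : v.valuation K (x : K) = 1 :=
      val_eq_one_of_sub_one_lt v (lt_of_lt_of_le hx (exp_neg_natCast_le_one n))
    have : ((x⁻¹ : Kˣ) : K) - 1 = - (((x : K) - 1) * (x : K)⁻¹) := by
      have hx0 : (x : K) ≠ 0 := x.ne_zero
      push_cast; field_simp; ring
    rw [this, Valuation.map_neg, map_mul, map_inv₀, hx1, inv_one, mul_one]
    exact hx

theorem mem_nearOne_iff (v : Pl K) (n : ℕ) (x : Kˣ) :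
    x ∈ nearOne v n ↔ v.valuation K ((x : K) - 1) < WithZero.exp (-(n : ℤ)) := Iff.rfl

theorem nearOne_anti (v : Pl K) {m n : ℕ} (h : m ≤ n) : nearOne v n ≤ nearOne v m := by
  intro x hx
  rw [mem_nearOne_iff] at hx ⊢
  refine lt_of_lt_of_le hx ?_
  rw [WithZero.exp_le_exp]; omega

theorem val_eq_one_of_mem_nearOne {v : Pl K} {n : ℕ} {x : Kˣ} (h : x ∈ nearOne v n) :
    v.valuation K (x : K) = 1 :=
  val_eq_one_of_sub_one_lt v (lt_of_lt_of_le h (exp_neg_natCast_le_one n))

/-- The global `p`-th powers. -/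
def powRange (p : ℕ) (K : Type*) [Field K] : Subgroup Kˣ := (powMonoidHom p : Kˣ →* Kˣ).range

theorem mem_powRange_iff (p : ℕ) (x : Kˣ) : x ∈ powRange p K ↔ ∃ y : Kˣ, y ^ p = x := Iff.rfl

end

section

variable {K : Type*} [Field K] [NumberField K] (L : Type*) [Field L] [NumberField L] [Algebra K L]

/-- The global norms. -/
noncomputable def normRange : Subgroup Kˣ := (normU K L).range

theorem mem_normRange_iff (x : Kˣ) : x ∈ normRange (K := K) L ↔ ∃ y : Lˣ, normU K L y = x := Iff.rfl

/-- `nrm L v m = N(Lˣ) · (Kˣ ∩ U_v^(m+1))`: the elements which are norms modulo `v ^ (m+1)`. -/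
noncomputable def nrm (v : Pl K) (m : ℕ) : Subgroup Kˣ := normRange (K := K) L ⊔ nearOne v m

/-- `locNorm L v = Kˣ ∩ N (L ⊗ K_v)ˣ`. -/
noncomputable def locNorm (v : Pl K) : Subgroup Kˣ := ⨅ m : ℕ, nrm L v m

theorem normRange_le_nrm (v : Pl K) (m : ℕ) : normRange (K := K) L ≤ nrm L v m := le_sup_left

theorem nearOne_le_nrm (v : Pl K) (m : ℕ) : nearOne v m ≤ nrm L v m := le_sup_right

theorem nrm_anti (v : Pl K) {m n : ℕ} (h : m ≤ n) : nrm L v n ≤ nrm L v m :=
  sup_le_sup_left (nearOne_anti v h) _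

theorem locNorm_le_nrm (v : Pl K) (m : ℕ) : locNorm L v ≤ nrm L v m := iInf_le _ m

theorem mem_locNorm_iff (v : Pl K) (x : Kˣ) : x ∈ locNorm L v ↔ ∀ m, x ∈ nrm L v m := by
  simp [locNorm, Subgroup.mem_iInf]

theorem mem_nrm_iff (v : Pl K) (m : ℕ) (x : Kˣ) :
    x ∈ nrm L v m ↔ ∃ y : Lˣ, x / normU K L y ∈ nearOne v m := by
  rw [nrm, Subgroup.mem_sup]
  constructor
  · rintro ⟨_, ⟨y, rfl⟩, t, ht, rfl⟩
    exact ⟨y, by simpa using ht⟩
  · rintro ⟨y, hy⟩
    exact ⟨normU K L y, ⟨y, rfl⟩, _, hy, by simp⟩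

theorem powRange_le_normRange : powRange (Module.finrank K L) K ≤ normRange (K := K) L := by
  rintro _ ⟨y, rfl⟩
  refine ⟨Units.map (algebraMap K L : K →* L) y, ?_⟩
  ext
  simp [normU, Algebra.norm_algebraMap]

end

end Fermat.Agent.S55.H
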