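import Mathlib

/-!
# S55, block [H]: the group-theoretic counting identity
-/

set_option autoImplicit false

namespace Fermat.Agent.S55.H

/-- `[X : EH] [E : N] = [X : H] [E ∩ H : N]`, and its consequence for the Hasse norm theorem. -/
theorem count_core {X : Type*} [CommGroup X] (E H NE : Subgroup X) (p u : ℕ) (hp : p.Prime)
    (h1 : NE ≤ E) (h2 : NE ≤ H) (hFI : NE.relIndex E * p = p ^ u)
    (hSI : (E ⊔ H).index ≤ p) (hH0 : H.index ≠ 0) (hH : p ^ u ≤ H.index) :
    E ⊓ H ≤ NE ∧ H.index = p ^ u := by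
  have e1 : H.relIndex (E ⊔ H) * (E ⊔ H).index = H.index :=
    Subgroup.relIndex_mul_index le_sup_right
  have e2 : H.relIndex (E ⊔ H) = H.relIndex E := Subgroup.relIndex_sup_right E H
  have e3 : (E ⊓ H).relIndex E = H.relIndex E := by
    rw [inf_comm]; exact Subgroup.inf_relIndex_right H E
  have e4 : NE.relIndex (E ⊓ H) * (E ⊓ H).relIndex E = NE.relIndex E :=
    Subgroup.relIndex_mul_relIndex _ _ _ (le_inf h1 h2) inf_le_left
  set a := (E ⊔ H).index
  set b := H.relIndex E
  set c := NE.relIndex (E ⊓ H)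
  rw [e2] at e1
  rw [e3] at e4
  have hb : b ≠ 0 := by
    intro hb; rw [hb, zero_mul] at e1; exact hH0 e1.symm
  have hp0 : 0 < p := hp.pos
  have hpu : 0 < p ^ u := pow_pos hp0 u
  have hc0 : c ≠ 0 := by
    intro hc; rw [hc, zero_mul] at e4; rw [← e4, zero_mul] at hFI; omega
  have hle : c * b * p ≤ b * p := by
    calc c * b * p = p ^ u := by rw [e4, hFI]
      _ ≤ H.index := hH
      _ = b * a := e1.symm
      _ ≤ b * p := Nat.mul_le_mul_left b hSI
  have hc1 : c ≤ 1 := by
    have hbp : 0 < b * p := Nat.mul_pos (Nat.pos_of_ne_zero hb) hp0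
    have : c * (b * p) ≤ 1 * (b * p) := by rw [one_mul, ← mul_assoc]; exact hle
    exact Nat.le_of_mul_le_mul_right this hbp
  have hc : c = 1 := by omega
  refine ⟨Subgroup.relIndex_eq_one.mp hc, le_antisymm ?_ hH⟩
  calc H.index = b * a := e1.symm
    _ ≤ b * p := Nat.mul_le_mul_left b hSI
    _ = c * b * p := by rw [hc, one_mul]
    _ = p ^ u := by rw [e4, hFI]

end Fermat.Agent.S55.H
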