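import Fermat.Agent.S55.H.Defs

/-!
# S55, block [H] : `Kˣ / (Kˣ^p · U_v^(m+1))` is finite
-/

set_option autoImplicit false

namespace Fermat.Agent.S55.H

open NumberField IsDedekindDomain

section

variable {K : Type*} [Field K] [NumberField K]

/-- a `v`-unit of `K` is close to an element of `𝓞 K`. -/
theorem FiniteIndex.exists_approx (v : Pl K) (m : ℕ) {u : K} (hu : v.valuation K u = 1) :
    ∃ a : 𝓞 K, v.valuation K (algebraMap (𝓞 K) K a - u) < WithZero.exp (-(m : ℤ)) := by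
  obtain ⟨a, ha⟩ := v.exists_valuation_sub_lt_of_integer (K := K) hu.le
    (Units.mk0 (WithZero.exp (-(m : ℤ))) WithZero.exp_ne_zero)
  exact ⟨a, ha⟩

theorem FiniteIndex.val_eq_one_of_close (v : Pl K) (m : ℕ) {u a : K} (hu : v.valuation K u = 1)
    (h : v.valuation K (a - u) < WithZero.exp (-(m : ℤ))) : v.valuation K a = 1 := by
  have h1 : v.valuation K (a - u) < v.valuation K u := by
    rw [hu]; exact lt_of_lt_of_le h (exp_neg_natCast_le_one m)
  have := Valuation.map_add_eq_of_lt_left (v.valuation K) h1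
  rw [add_sub_cancel] at this
  rw [this, hu]

theorem FiniteIndex.val_sub_lt_of_mk_eq (v : Pl K) (m : ℕ) {a a' : 𝓞 K}
    (h : Ideal.Quotient.mk (v.asIdeal ^ (m + 1)) a = Ideal.Quotient.mk (v.asIdeal ^ (m + 1)) a') :
    v.valuation K (algebraMap (𝓞 K) K a - algebraMap (𝓞 K) K a') < WithZero.exp (-(m : ℤ)) := by
  rw [Ideal.Quotient.eq, ← v.intValuation_le_pow_iff_mem] at h
  rw [← map_sub, v.valuation_of_algebraMap]
  refine lt_of_le_of_lt h ?_
  rw [WithZero.exp_lt_exp]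
  push_cast
  omega

/-- the chosen representative of a class modulo `v ^ (m+1)`. -/
noncomputable def FiniteIndex.rep (v : Pl K) (m : ℕ) (c : 𝓞 K ⧸ v.asIdeal ^ (m + 1)) : Kˣ :=
  open Classical in
  if h : ∃ a : 𝓞 K, Ideal.Quotient.mk (v.asIdeal ^ (m + 1)) a = c ∧
      v.valuation K (algebraMap (𝓞 K) K a) = 1 then
    Units.mk0 (algebraMap (𝓞 K) K h.choose) (by
      intro h0
      have := h.choose_spec.2
      rw [h0, map_zero] at this
      exact zero_ne_one this)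
  else 1

theorem FiniteIndex.rep_spec (v : Pl K) (m : ℕ) (a : 𝓞 K)
    (ha : v.valuation K (algebraMap (𝓞 K) K a) = 1) :
    ∃ a' : 𝓞 K, (FiniteIndex.rep v m (Ideal.Quotient.mk (v.asIdeal ^ (m + 1)) a) : K)
        = algebraMap (𝓞 K) K a' ∧
      Ideal.Quotient.mk (v.asIdeal ^ (m + 1)) a' = Ideal.Quotient.mk (v.asIdeal ^ (m + 1)) a ∧
      v.valuation K (algebraMap (𝓞 K) K a') = 1 := by
  have h : ∃ a' : 𝓞 K, Ideal.Quotient.mk (v.asIdeal ^ (m + 1)) a'
      = Ideal.Quotient.mk (v.asIdeal ^ (m + 1)) a ∧ v.valuation K (algebraMap (𝓞 K) K a') = 1 :=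
    ⟨a, rfl, ha⟩
  refine ⟨h.choose, ?_, h.choose_spec.1, h.choose_spec.2⟩
  rw [FiniteIndex.rep, dif_pos h]
  rfl

instance FiniteIndex.finite_quot (v : Pl K) (m : ℕ) : Finite (𝓞 K ⧸ v.asIdeal ^ (m + 1)) :=
  Ideal.finiteQuotientOfFreeOfNeBot _ (pow_ne_zero _ v.ne_bot)

end

theorem index_powRange_sup_nearOne_ne_zero {K : Type*} [Field K] [NumberField K] (p : ℕ)
    (hp : p ≠ 0) (v : Pl K) (m : ℕ) :
    (powRange p K ⊔ nearOne v m).index ≠ 0 := by
  obtain ⟨π, hπ⟩ := v.valuation_exists_uniformizer K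
  have hπ0 : π ≠ 0 := by
    rintro rfl
    rw [map_zero] at hπ
    exact WithZero.exp_ne_zero hπ.symm
  set ϖ : Kˣ := Units.mk0 π hπ0 with hϖ
  set B := powRange p K ⊔ nearOne v m with hB
  let f : Fin p × (𝓞 K ⧸ v.asIdeal ^ (m + 1)) → Kˣ ⧸ B := fun ic =>
    QuotientGroup.mk (ϖ ^ (ic.1 : ℕ) * FiniteIndex.rep v m ic.2)
  have hf : Function.Surjective f := by
    intro y
    obtain ⟨x, rfl⟩ := QuotientGroup.mk_surjective y
    have hx0 : v.valuation K (x : K) ≠ 0 := (Valuation.ne_zero_iff _).mpr x.ne_zero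
    set k : ℤ := -WithZero.log (v.valuation K (x : K)) with hk
    have hvx : v.valuation K (x : K) = WithZero.exp (-k) := by
      rw [hk, neg_neg, WithZero.exp_log hx0]
    have hp' : (0 : ℤ) < p := by exact_mod_cast Nat.pos_of_ne_zero hp
    set i : ℕ := (k % p).toNat with hi
    have hi1 : (i : ℤ) = k % p := Int.toNat_of_nonneg (Int.emod_nonneg _ hp'.ne')
    have hi2 : i < p := by
      have := Int.emod_lt_of_pos k hp'
      omega
    set q : ℤ := k / p with hq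
    have hkq : k = q * p + i := by
      rw [hi1, hq]; exact (Int.ediv_mul_add_emod k p).symm
    set u : Kˣ := x * ϖ ^ (-k) with hu
    have hvu : v.valuation K (u : K) = 1 := by
      rw [hu]
      push_cast
      rw [map_mul, map_zpow₀, hvx, hϖ, Units.val_mk0, hπ, ← WithZero.exp_zsmul, ← WithZero.exp_add]
      simp
    obtain ⟨a, ha⟩ := FiniteIndex.exists_approx v m hvu
    have hva := FiniteIndex.val_eq_one_of_close v m hvu ha
    obtain ⟨a', ha'1, ha'2, ha'3⟩ := FiniteIndex.rep_spec v m a hva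
    refine ⟨(⟨i, hi2⟩, Ideal.Quotient.mk _ a), ?_⟩
    change (QuotientGroup.mk (ϖ ^ i * FiniteIndex.rep v m (Ideal.Quotient.mk _ a)) : Kˣ ⧸ B)
      = QuotientGroup.mk x
    rw [QuotientGroup.eq]
    set r := FiniteIndex.rep v m (Ideal.Quotient.mk (v.asIdeal ^ (m + 1)) a) with hr
    have hdecomp : (ϖ ^ i * r)⁻¹ * x = (ϖ ^ q) ^ p * (u * r⁻¹) := by
      have hx : x = u * ϖ ^ k := by
        rw [hu, mul_assoc, ← zpow_add, neg_add_cancel, zpow_zero, mul_one]
      have hk' : ϖ ^ k = (ϖ ^ q) ^ p * ϖ ^ i := by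
        rw [hkq, zpow_add, zpow_mul, zpow_natCast, zpow_natCast]
      rw [hx, hk', mul_inv]
      have : (ϖ ^ i)⁻¹ * r⁻¹ * (u * ((ϖ ^ q) ^ p * ϖ ^ i))
          = (ϖ ^ q) ^ p * (u * r⁻¹) * ((ϖ ^ i)⁻¹ * ϖ ^ i) := by
        simp only [mul_comm, mul_left_comm, mul_assoc]
      rw [this, inv_mul_cancel, mul_one]
    rw [hdecomp]
    refine Subgroup.mul_mem_sup ⟨ϖ ^ q, rfl⟩ ?_
    rw [mem_nearOne_iff]
    have hr0 : (r : K) ≠ 0 := r.ne_zero
    have hvr : v.valuation K (r : K) = 1 := by rw [ha'1]; exact ha'3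
    have e1 : ((u * r⁻¹ : Kˣ) : K) - 1 = ((u : K) - r) * (r : K)⁻¹ := by
      push_cast
      field_simp
    rw [e1, map_mul, map_inv₀, hvr, inv_one, mul_one, ha'1]
    have e2 : (u : K) - algebraMap (𝓞 K) K a'
        = -(algebraMap (𝓞 K) K a - u) + (algebraMap (𝓞 K) K a - algebraMap (𝓞 K) K a') := by ring
    rw [e2]
    refine lt_of_le_of_lt (Valuation.map_add _ _ _) (max_lt ?_ ?_)
    · rw [Valuation.map_neg]; exact ha
    · exact FiniteIndex.val_sub_lt_of_mk_eq v m ha'2.symm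
  have : Finite (Kˣ ⧸ B) := Finite.of_surjective f hf
  exact Subgroup.index_ne_zero_of_finite

end Fermat.Agent.S55.H
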