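import Fermat.Agent.S55.H.WeakApprox

/-!
# S55, block [H], package H-WA2: the index of an intersection of open subgroups at distinct places
-/

set_option autoImplicit false

namespace Fermat.Agent.S55.H

open NumberField IsDedekindDomain

/-- abstract version: simultaneous approximation gives multiplicativity of the index. -/
theorem indexProd_index_iInf {G ι : Type*} [CommGroup G] [Fintype ι] (H : ι → Subgroup G)
    (hs : ∀ x : ι → G, ∃ y : G, ∀ i, y / x i ∈ H i) :
    (⨅ i, H i).index = ∏ i, (H i).index := by
  let f : G →* ((i : ι) → G ⧸ H i) := MonoidHom.pi fun i => QuotientGroup.mk' (H i)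
  have hsurj : Function.Surjective f := by
    intro g
    choose x hx using fun i : ι => QuotientGroup.mk_surjective (g i)
    obtain ⟨y, hy⟩ := hs x
    refine ⟨y, funext fun i => ?_⟩
    show (QuotientGroup.mk y : G ⧸ H i) = g i
    rw [← hx i, QuotientGroup.eq]
    have h3 := (H i).inv_mem (hy i)
    have h4 : (y / x i)⁻¹ = y⁻¹ * x i := by
      rw [inv_div, div_eq_mul_inv, mul_comm]
    rwa [h4] at h3
  have hker : f.ker = ⨅ i, H i := by
    ext y
    simp only [MonoidHom.mem_ker, Subgroup.mem_iInf]
    constructor
    · intro h i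
      have := congrFun h i
      exact (QuotientGroup.eq_one_iff y).mp this
    · intro h
      funext i
      exact (QuotientGroup.eq_one_iff y).mpr (h i)
  rw [← hker, Subgroup.index_ker, MonoidHom.range_eq_top.mpr hsurj, Nat.card_congr
    (Subgroup.topEquiv (G := (i : ι) → G ⧸ H i)).toEquiv, Nat.card_pi]
  rfl

theorem index_iInf_eq_prod {K : Type*} [Field K] [NumberField K] (T : Finset (Pl K)) (H : Pl K → Subgroup Kˣ) (n : ℕ)
    (hH : ∀ v ∈ T, nearOne v n ≤ H v) :
    (⨅ v ∈ T, H v).index = ∏ v ∈ T, (H v).index := by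
  classical
  have h1 := indexProd_index_iInf (fun v : T => H v) (by
    intro x
    let x' : Pl K → Kˣ := fun v => if hv : v ∈ T then x ⟨v, hv⟩ else 1
    obtain ⟨y, hy⟩ := exists_approx T x' n
    refine ⟨y, fun v => ?_⟩
    have h1 := hH v v.2 (hy v v.2)
    have h2 : x' v = x v := by simp [x']
    rwa [h2] at h1)
  rw [iInf_subtype', h1, ← Finset.prod_coe_sort T fun v => (H v).index]

end Fermat.Agent.S55.H
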