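import Fermat.Agent.S55.H.LocNormAbs

/-!
# S55, block H, step (3): the norm of a cyclic extension of number fields is not locally
surjective at a non-split prime (congruence form, no completions)
-/

set_option autoImplicit false
set_option linter.unusedSectionVars false

namespace Fermat.Agent.S55.H.LocNorm

open WithZero IsDedekindDomain NumberField

section nf

variable {k L : Type*} [Field k] [NumberField k] [Field L] [NumberField L] [Algebra k L]

/-- finitely many residues -/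
theorem locnorm_nf_reps (P : HeightOneSpectrum (𝓞 k)) :
    ∃ F : Set k, F.Finite ∧ ∀ x, P.valuation k x ≤ 1 → ∃ r ∈ F, P.valuation k (x - r) < 1 := by
  classical
  have hfin : Finite (𝓞 k ⧸ P.asIdeal) := Ideal.finiteQuotientOfFreeOfNeBot P.asIdeal P.ne_bot
  refine ⟨Set.range fun q : 𝓞 k ⧸ P.asIdeal => algebraMap (𝓞 k) k (Quotient.out q),
    Set.finite_range _, fun x hx => ?_⟩
  obtain ⟨a, ha⟩ := P.exists_valuation_sub_lt_of_integer hx 1
  refine ⟨_, ⟨Ideal.Quotient.mk P.asIdeal a, rfl⟩, ?_⟩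
  set a' : 𝓞 k := Quotient.out (Ideal.Quotient.mk P.asIdeal a) with ha'
  have h1 : a - a' ∈ P.asIdeal := by
    rw [← Ideal.Quotient.eq]
    exact (Quotient.out_eq _).symm
  have h2 : P.valuation k (algebraMap (𝓞 k) k (a - a')) < 1 :=
    (P.valuation_lt_one_iff_mem _).mpr h1
  have e : x - algebraMap (𝓞 k) k a' = algebraMap (𝓞 k) k (a - a') - (algebraMap (𝓞 k) k a - x) := by
    rw [map_sub]; ring
  rw [e]
  exact Valuation.map_sub_lt _ h2 (by simpa using ha)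

variable [IsGalois k L]

theorem locnorm_nf_map_eq (P : HeightOneSpectrum (𝓞 k))
    (hP : ∀ Q₁ Q₂ : HeightOneSpectrum (𝓞 L), Q₁.asIdeal.LiesOver P.asIdeal →
      Q₂.asIdeal.LiesOver P.asIdeal → Q₁ = Q₂)
    (Q : HeightOneSpectrum (𝓞 L)) [hQ : Q.asIdeal.LiesOver P.asIdeal]
    (τ : 𝓞 L ≃ₐ[𝓞 k] 𝓞 L) : Q.asIdeal.map τ = Q.asIdeal := by
  have h1 : (Q.asIdeal.map τ).IsPrime := Ideal.map_isPrime_of_equiv τ
  have h2 : Q.asIdeal.map τ ≠ ⊥ := by
    rw [Ne, Ideal.map_eq_bot_iff_of_injective τ.injective]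
    exact Q.ne_bot
  have h3 : (Q.asIdeal.map τ).LiesOver P.asIdeal := inferInstance
  have := hP ⟨Q.asIdeal.map τ, h1, h2⟩ Q h3 hQ
  exact congrArg HeightOneSpectrum.asIdeal this

theorem locnorm_nf_intValuation_le (P : HeightOneSpectrum (𝓞 k))
    (hP : ∀ Q₁ Q₂ : HeightOneSpectrum (𝓞 L), Q₁.asIdeal.LiesOver P.asIdeal →
      Q₂.asIdeal.LiesOver P.asIdeal → Q₁ = Q₂)
    (Q : HeightOneSpectrum (𝓞 L)) [hQ : Q.asIdeal.LiesOver P.asIdeal]
    (τ : 𝓞 L ≃ₐ[𝓞 k] 𝓞 L) (a : 𝓞 L) : Q.intValuation (τ a) ≤ Q.intValuation a := by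
  by_cases ha : a = 0
  · simp [ha]
  have h0 : Q.intValuation a ≠ 0 := Q.intValuation_ne_zero a ha
  have h1 : Q.intValuation a ≤ 1 := Q.intValuation_le_one a
  set n : ℕ := (-log (Q.intValuation a)).toNat with hn
  have hlog : log (Q.intValuation a) ≤ 0 := by
    rw [log_le_iff_le_exp h0, exp_zero]; exact h1
  have hn' : Q.intValuation a = exp (-(n : ℤ)) := by
    rw [hn, Int.toNat_of_nonneg (by omega), neg_neg, exp_log h0]
  have h2 : a ∈ Q.asIdeal ^ n := by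
    rw [← Q.intValuation_le_pow_iff_mem, hn']
  have h3 : τ a ∈ Q.asIdeal ^ n := by
    have := Ideal.mem_map_of_mem τ h2
    rwa [Ideal.map_pow, locnorm_nf_map_eq P hP Q τ] at this
  rw [hn']
  exact (Q.intValuation_le_pow_iff_mem _ _).mpr h3

theorem locnorm_nf_intValuation_eq (P : HeightOneSpectrum (𝓞 k))
    (hP : ∀ Q₁ Q₂ : HeightOneSpectrum (𝓞 L), Q₁.asIdeal.LiesOver P.asIdeal →
      Q₂.asIdeal.LiesOver P.asIdeal → Q₁ = Q₂)
    (Q : HeightOneSpectrum (𝓞 L)) [hQ : Q.asIdeal.LiesOver P.asIdeal]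
    (τ : 𝓞 L ≃ₐ[𝓞 k] 𝓞 L) (a : 𝓞 L) : Q.intValuation (τ a) = Q.intValuation a := by
  refine le_antisymm (locnorm_nf_intValuation_le P hP Q τ a) ?_
  have := locnorm_nf_intValuation_le P hP Q τ.symm (τ a)
  rwa [AlgEquiv.symm_apply_apply] at this

theorem locnorm_nf_valuation_eq (P : HeightOneSpectrum (𝓞 k))
    (hP : ∀ Q₁ Q₂ : HeightOneSpectrum (𝓞 L), Q₁.asIdeal.LiesOver P.asIdeal →
      Q₂.asIdeal.LiesOver P.asIdeal → Q₁ = Q₂)
    (Q : HeightOneSpectrum (𝓞 L)) [hQ : Q.asIdeal.LiesOver P.asIdeal]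
    (τ : L ≃ₐ[k] L) (y : L) : Q.valuation L (τ y) = Q.valuation L y := by
  obtain ⟨a, c, -, rfl⟩ := IsFractionRing.div_surjective (A := 𝓞 L) y
  have h : ∀ a : 𝓞 L, Q.valuation L (τ (algebraMap (𝓞 L) L a))
      = Q.valuation L (algebraMap (𝓞 L) L a) := by
    intro a
    rw [← algebraMap_galRestrict_apply (𝓞 k) τ a, HeightOneSpectrum.valuation_of_algebraMap,
      HeightOneSpectrum.valuation_of_algebraMap, locnorm_nf_intValuation_eq P hP Q]
  rw [map_div₀, map_div₀, map_div₀, h, h]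

/-- **Step (3) of the counting proof of the Hasse norm theorem.**  `L/k` cyclic, `P` a prime of `k`
with only one prime of `L` above it.  Then there are `m` and `x ∈ kˣ` such that `x` is not
congruent to a norm modulo `P ^ m` (multiplicatively). -/
theorem exists_not_nrm' (σ : L ≃ₐ[k] L) (hσ : ∀ τ : L ≃ₐ[k] L, τ ∈ Subgroup.zpowers σ)
    (hdeg : 2 ≤ Module.finrank k L) (P : HeightOneSpectrum (𝓞 k))
    (hP : ∀ Q₁ Q₂ : HeightOneSpectrum (𝓞 L), Q₁.asIdeal.LiesOver P.asIdeal →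
      Q₂.asIdeal.LiesOver P.asIdeal → Q₁ = Q₂) :
    ∃ m : ℕ, ∃ x : k, x ≠ 0 ∧
      ∀ y : L, y ≠ 0 → ¬ P.valuation k (x / Algebra.norm k y - 1) ≤ exp (-(m : ℤ)) := by
  classical
  have := P.isMaximal
  obtain ⟨Q₀, hQ₀m, hQ₀⟩ := Ideal.exists_maximal_ideal_liesOver_of_isIntegral (S := 𝓞 L) P.asIdeal
  have hQ₀b : Q₀ ≠ ⊥ := Ideal.ne_bot_of_liesOver_of_ne_bot P.ne_bot Q₀
  set Q : HeightOneSpectrum (𝓞 L) := ⟨Q₀, hQ₀m.isPrime, hQ₀b⟩ with hQdef
  have hQ : Q.asIdeal.LiesOver P.asIdeal := hQ₀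
  obtain ⟨ϖ, hϖ⟩ := P.valuation_exists_uniformizer k
  obtain ⟨F, hF, hres⟩ := locnorm_nf_reps P
  refine locnorm_abs (w := Q.valuation L) (by exact_mod_cast Fintype.card_ne_zero) σ hσ hdeg hϖ
    F hF hres (locnorm_nf_valuation_eq P hP Q) (fun x => ?_)
  rw [← HeightOneSpectrum.valuation_liesOver L P Q x]
  exact pow_le_one_iff (Ideal.IsDedekindDomain.ramificationIdx'_ne_zero_of_liesOver Q.asIdeal P.ne_bot)

end nf

end Fermat.Agent.S55.H.LocNorm

namespace Fermat.Agent.S55.H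

open WithZero IsDedekindDomain NumberField

/-- **Step (3) of the counting proof of the Hasse norm theorem** (shape fixed by the [H] lead).
`L/k` cyclic of degree `> 1`, `P` a prime of `k` with only one prime of `L` above it.  Then there
are `m` and `x ∈ kˣ` such that `x` is not congruent to a norm modulo `P ^ m` (multiplicatively). -/
theorem exists_not_nrm {k L : Type*} [Field k] [NumberField k] [Field L] [NumberField L]
    [Algebra k L] [IsGalois k L] (hcyc : IsCyclic Gal(L/k)) (hdeg : 1 < Module.finrank k L)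
    (P : HeightOneSpectrum (𝓞 k))
    (hP : ∀ w w' : HeightOneSpectrum (𝓞 L), w.under (𝓞 k) = P → w'.under (𝓞 k) = P → w = w') :
    ∃ m : ℕ, ∃ x : k, x ≠ 0 ∧
      ∀ y : L, y ≠ 0 → ¬ P.valuation k (x / Algebra.norm k y - 1) ≤ WithZero.exp (-(m : ℤ)) := by
  obtain ⟨σ, hσ⟩ := hcyc.exists_generator
  refine LocNorm.exists_not_nrm' σ hσ hdeg P fun Q₁ Q₂ h₁ h₂ => hP Q₁ Q₂ ?_ ?_
  · exact HeightOneSpectrum.ext h₁.over.symm
  · exact HeightOneSpectrum.ext h₂.over.symm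

end Fermat.Agent.S55.H
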