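import Fermat.Agent.S55.H.Defs

/-!
# S55, block [H]: only finitely many primes ramify; an element is a unit at almost all places
-/

set_option autoImplicit false

namespace Fermat.Agent.S55.H

open NumberField IsDedekindDomain

theorem exists_unramOutside {K : Type*} [Field K] [NumberField K] (L : Type*) [Field L]
    [NumberField L] [Algebra K L] :
    ∃ T0 : Set (Pl K), T0.Finite ∧ ∀ T, T0 ⊆ T → UnramOutside L T := by
  have hD : differentIdeal (𝓞 K) (𝓞 L) ≠ ⊥ := differentIdeal_ne_bot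
  have hW : {w : Pl L | w.asIdeal ∣ differentIdeal (𝓞 K) (𝓞 L)}.Finite := Ideal.finite_factors hD
  refine ⟨(fun w : Pl L => w.under (𝓞 K)) '' {w : Pl L | w.asIdeal ∣ differentIdeal (𝓞 K) (𝓞 L)},
    hW.image _, ?_⟩
  intro T hT w hw
  have hnd : ¬ w.asIdeal ∣ differentIdeal (𝓞 K) (𝓞 L) := fun h => hw (hT ⟨w, h, rfl⟩)
  have hmax : (w.under (𝓞 K)).asIdeal.IsMaximal := (w.under (𝓞 K)).isMaximal
  refine Ideal.ramificationIdx'_spec ?_ ?_
  · rw [pow_one]
    exact Ideal.map_comap_le
  · intro hle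
    apply hnd
    have := pow_sub_one_dvd_differentIdeal (𝓞 K) w.asIdeal 2 (w.under (𝓞 K)).ne_bot
      (Ideal.dvd_iff_le.mpr hle)
    simpa using this

theorem finite_valuation_ne_one {K : Type*} [Field K] [NumberField K] (a : Kˣ) :
    {v : Pl K | v.valuation K (a : K) ≠ 1}.Finite := by
  obtain ⟨n, d, hd, hnd⟩ := IsFractionRing.div_surjective (A := 𝓞 K) (a : K)
  have hd0 : d ≠ 0 := nonZeroDivisors.ne_zero hd
  have hn0 : n ≠ 0 := by
    rintro rfl
    rw [map_zero, zero_div] at hnd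
    exact a.ne_zero hnd.symm
  have hfin : ∀ x : 𝓞 K, x ≠ 0 → {v : Pl K | v.asIdeal ∣ Ideal.span {x}}.Finite := fun x hx =>
    Ideal.finite_factors (by simpa using hx)
  refine ((hfin n hn0).union (hfin d hd0)).subset ?_
  intro v hv
  by_contra hcon
  simp only [Set.mem_union, Set.mem_ofPred_eq, not_or] at hcon
  apply hv
  have h1 : ∀ x : 𝓞 K, ¬ v.asIdeal ∣ Ideal.span {x} → v.valuation K (algebraMap (𝓞 K) K x) = 1 := by
    intro x hx
    rw [HeightOneSpectrum.valuation_of_algebraMap]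
    refine le_antisymm (v.intValuation_le_one x) (not_lt.mp fun h => hx ?_)
    exact (v.intValuation_lt_one_iff_dvd x).mp h
  rw [← hnd, map_div₀, h1 n hcon.1, h1 d hcon.2, div_one]

end Fermat.Agent.S55.H
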