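import Fermat.Agent.S55.H.SI.Norm
import Fermat.Agent.S55.H.U.Defs
import Fermat.Agent.S55.A.Finite
import Fermat.Agent.S55.A.Main

/-!
# S55, block [H]: the second inequality `[Kˣ : E_T H] ≤ [L : K]`
-/

set_option autoImplicit false

namespace Fermat.Agent.S55.H

open IsDedekindDomain NumberField Fermat.Agent.S14.An Fermat.Agent.S55.A
open scoped nonZeroDivisors

variable {K L : Type*} [Field K] [NumberField K] [Field L] [NumberField L] [Algebra K L]

theorem index_le_finrank (T : Set (HeightOneSpectrum (𝓞 K))) (hT : T.Finite)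
    (hclK : TPrincipal K T) (hclL : TPrincipal L (above L T))
    (H : Subgroup Kˣ) (hN : (normU K L).range ≤ H) (n : ℕ)
    (hopen : ∀ x : Kˣ, (∀ v ∈ T, v.valuation K ((x : K) - 1) < WithZero.exp (-(n : ℤ))) → x ∈ H) :
    (T.unit K ⊔ H).index ≠ 0 ∧ (T.unit K ⊔ H).index ≤ Module.finrank K L := by
  classical
  set N : Subgroup Kˣ := T.unit K ⊔ H with hNdef
  have hTN : T.unit K ≤ N := le_sup_left
  have hHN : H ≤ N := le_sup_right
  set φ : (Ideal (𝓞 K))⁰ →* Kˣ ⧸ N := SI.phiT (K := K) hclK N hTN with hφ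
  set 𝔪 : Ideal (𝓞 K) := ∏ v ∈ hT.toFinset, v.asIdeal ^ (n + 1) with h𝔪def
  have h𝔪 : 𝔪 ≠ ⊥ := by
    rw [← Ideal.zero_eq_bot, h𝔪def]
    exact Finset.prod_ne_zero_iff.mpr fun v _ => pow_ne_zero _ v.ne_bot
  have h𝔪le : ∀ v ∈ T, 𝔪 ≤ v.asIdeal ^ (n + 1) := by
    intro v hv
    exact Ideal.le_of_dvd (Finset.dvd_prod_of_mem _ (hT.mem_toFinset.mpr hv))
  have hspan : ∀ (α : 𝓞 K) (hα : α ≠ 0) (c : Kˣ), (c : K) = algebraMap (𝓞 K) K α →
      φ (spanNZ α hα) = QuotientGroup.mk c := by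
    intro α hα c hc
    exact SI.phiT_eq hclK N hTN _ c (SI.rel_span hα c hc)
  have hkill : ∀ v ∈ T, φ (SI.pNZ v) = 1 := by
    intro v hv
    rw [hφ, SI.phiT_eq hclK N hTN (SI.pNZ v) 1 (SI.rel_prime hv), QuotientGroup.mk_one]
  -- ray
  have hray : RayTrivial (A := Kˣ ⧸ N) 𝔪 φ := by
    intro α hα hmem
    have hαK : algebraMap (𝓞 K) K α ≠ 0 := by simpa using hα
    rw [hspan α hα (Units.mk0 _ hαK) rfl, QuotientGroup.eq_one_iff]
    refine hHN (hopen _ fun v hv => ?_)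
    rw [Units.val_mk0, ← map_one (algebraMap (𝓞 K) K), ← map_sub,
      HeightOneSpectrum.valuation_of_algebraMap]
    have h1 : v.intValuation (α - 1) ≤ WithZero.exp (-((n + 1 : ℕ) : ℤ)) :=
      (v.intValuation_le_pow_iff_mem _ _).mpr (h𝔪le v hv hmem)
    refine lt_of_le_of_lt h1 ?_
    rw [WithZero.exp_lt_exp]
    push_cast
    omega
  -- surjectivity
  have hsurj : ∀ a : Kˣ ⧸ N, ∃ I : (Ideal (𝓞 K))⁰, IsCoprime (I : Ideal (𝓞 K)) 𝔪 ∧ φ I = a := by
    intro a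
    obtain ⟨x, rfl⟩ := QuotientGroup.mk_surjective a
    obtain ⟨r, s, hs, hrs⟩ := IsFractionRing.div_surjective (A := 𝓞 K) (x : K)
    have hs0 : s ≠ 0 := nonZeroDivisors.ne_zero hs
    have hr0 : r ≠ 0 := by
      rintro rfl
      rw [map_zero, zero_div] at hrs
      exact x.ne_zero hrs.symm
    have hsK : algebraMap (𝓞 K) K s ≠ 0 := by simpa using hs0
    have hd : 0 < Module.finrank K L := Module.finrank_pos
    obtain ⟨d, hd'⟩ : ∃ d, Module.finrank K L = d + 1 := ⟨Module.finrank K L - 1, by omega⟩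
    have ht0 : r * s ^ d ≠ 0 := mul_ne_zero hr0 (pow_ne_zero _ hs0)
    have hsL : algebraMap K L (algebraMap (𝓞 K) K s) ≠ 0 := by simpa using hsK
    have hy : ((x * normU K L (Units.mk0 _ hsL) : Kˣ) : K) = algebraMap (𝓞 K) K (r * s ^ d) := by
      rw [Units.val_mul, Units.coe_map, Units.val_mk0]
      change (x : K) * Algebra.norm K (algebraMap K L (algebraMap (𝓞 K) K s)) = _
      rw [Algebra.norm_algebraMap, hd', ← hrs, map_mul, map_pow]
      field_simp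
      ring
    obtain ⟨I₂, h1, h2, -⟩ := SI.exists_decomp (A := Kˣ ⧸ N) φ T hkill (spanNZ _ ht0)
    refine ⟨I₂, ?_, ?_⟩
    · rw [h𝔪def]
      refine IsCoprime.prod_right fun v hv => IsCoprime.pow_right ?_
      have hv' : v ∈ T := hT.mem_toFinset.mp hv
      have h3 := (SI.cnt_eq_zero_iff v (nonZeroDivisors.ne_zero I₂.2)).mp (h2 v hv')
      rw [Ideal.isCoprime_iff_sup_eq]
      by_contra hne
      have := v.isMaximal.eq_of_le hne le_sup_right
      exact h3 (this ▸ le_sup_left)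
    · rw [h1, hspan _ ht0 _ hy, QuotientGroup.eq]
      refine hHN (hN ⟨(Units.mk0 _ hsL)⁻¹, ?_⟩)
      rw [map_inv]
      group
  -- split primes
  have h2 : ∀ (v : HeightOneSpectrum (𝓞 K)) (w : HeightOneSpectrum (𝓞 L)),
      w.asIdeal.LiesOver v.asIdeal → Ideal.absNorm w.asIdeal = Ideal.absNorm v.asIdeal →
      ¬ 𝔪 ≤ v.asIdeal → φ (primeNZ v) = 1 := by
    intro v w hwv habs _
    have h3 : primeNZ v = SI.relNormNZ K (SI.pNZ w) := by
      rw [SI.relNormNZ_pNZ_of_absNorm_eq v w hwv habs]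
      rfl
    rw [h3]
    exact SI.phiT_relNormNZ hclK hclL N hTN (hN.trans hHN) _
  have hfin : Finite (Kˣ ⧸ N) := finite_of_rayTrivial (A := Kˣ ⧸ N) h𝔪 hray hsurj
  have hcard := card_le_finrank (A := Kˣ ⧸ N) L h𝔪 hray hsurj h2
  exact ⟨Subgroup.index_ne_zero_of_finite, hcard⟩

end Fermat.Agent.S55.H
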