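import Fermat.Agent.S55.H.Defs

/-!
# S55, block [H], package H-GALPL: the Galois group acts on the places of `L`,
transitively on the places over a given place of `K`
-/

set_option autoImplicit false
set_option linter.unusedSectionVars false

namespace Fermat.Agent.S55.H

open NumberField IsDedekindDomain

variable {K : Type*} [Field K] [NumberField K] {L : Type*} [Field L] [NumberField L] [Algebra K L]

theorem eq_of_valuation_eq (w w' : Pl L) (h : ∀ y : L, w.valuation L y = w'.valuation L y) :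
    w = w' := by
  apply HeightOneSpectrum.ext
  ext x
  rw [← w.valuation_lt_one_iff_mem (K := L), ← w'.valuation_lt_one_iff_mem (K := L), h]

/-- the automorphism of `𝓞 L` induced by `τ`. -/
noncomputable def galPlaces_e (τ : L ≃ₐ[K] L) : 𝓞 L ≃+* 𝓞 L :=
  RingOfIntegers.mapRingEquiv (τ : L ≃+* L)

theorem galPlaces_e_coe (τ : L ≃ₐ[K] L) (x : 𝓞 L) : ((galPlaces_e τ x : 𝓞 L) : L) = τ (x : L) := rfl

/-- the place `w ∘ τ`. -/
noncomputable def galPlaces_comp (τ : L ≃ₐ[K] L) (w : Pl L) : Pl L :=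
  HeightOneSpectrum.comap (galPlaces_e τ : 𝓞 L →+* 𝓞 L) (galPlaces_e τ).surjective w

theorem galPlaces_mem_comp (τ : L ≃ₐ[K] L) (w : Pl L) (x : 𝓞 L) :
    x ∈ (galPlaces_comp τ w).asIdeal ↔ galPlaces_e τ x ∈ w.asIdeal := Iff.rfl

theorem galPlaces_mem_comp_pow (τ : L ≃ₐ[K] L) (w : Pl L) (n : ℕ) (x : 𝓞 L) :
    x ∈ (galPlaces_comp τ w).asIdeal ^ n ↔ galPlaces_e τ x ∈ w.asIdeal ^ n := by
  have h1 : (galPlaces_comp τ w).asIdeal = w.asIdeal.map (galPlaces_e τ).symm := by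
    rw [Ideal.map_symm]
    rfl
  rw [h1, ← Ideal.map_pow, Ideal.map_symm]
  rfl

theorem galPlaces_intValuation (τ : L ≃ₐ[K] L) (w : Pl L) (x : 𝓞 L) :
    (galPlaces_comp τ w).intValuation x = w.intValuation (galPlaces_e τ x) := by
  rcases eq_or_ne x 0 with rfl | hx
  · simp
  have hx' : galPlaces_e τ x ≠ 0 := by
    intro h0
    exact hx ((galPlaces_e τ).injective (by rw [h0, map_zero]))
  have key : ∀ n : ℕ, (galPlaces_comp τ w).intValuation x ≤ WithZero.exp (-(n : ℤ)) ↔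
      w.intValuation (galPlaces_e τ x) ≤ WithZero.exp (-(n : ℤ)) := by
    intro n
    rw [HeightOneSpectrum.intValuation_le_pow_iff_mem, HeightOneSpectrum.intValuation_le_pow_iff_mem,
      galPlaces_mem_comp_pow]
  have e1 := (galPlaces_comp τ w).intValuation_if_neg hx
  have e2 := w.intValuation_if_neg hx'
  apply le_antisymm
  · rw [e2]
    apply (key _).2
    rw [e2]
  · rw [e1]
    apply (key _).1
    rw [e1]

theorem galPlaces_valuation (τ : L ≃ₐ[K] L) (w : Pl L) (y : L) :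
    (galPlaces_comp τ w).valuation L y = w.valuation L (τ y) := by
  obtain ⟨a, b, _, rfl⟩ := IsFractionRing.div_surjective (A := 𝓞 L) y
  rw [map_div₀, map_div₀, map_div₀, HeightOneSpectrum.valuation_of_algebraMap,
    HeightOneSpectrum.valuation_of_algebraMap, galPlaces_intValuation, galPlaces_intValuation,
    ← HeightOneSpectrum.valuation_of_algebraMap (K := L),
    ← HeightOneSpectrum.valuation_of_algebraMap (K := L)]
  rfl

theorem galPlaces_under (τ : L ≃ₐ[K] L) (w : Pl L) :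
    (galPlaces_comp τ w).under (𝓞 K) = w.under (𝓞 K) := by
  apply HeightOneSpectrum.ext
  ext x
  show galPlaces_e τ (algebraMap (𝓞 K) (𝓞 L) x) ∈ w.asIdeal ↔ algebraMap (𝓞 K) (𝓞 L) x ∈ w.asIdeal
  have : galPlaces_e τ (algebraMap (𝓞 K) (𝓞 L) x) = algebraMap (𝓞 K) (𝓞 L) x := by
    apply RingOfIntegers.ext
    rw [galPlaces_e_coe]
    exact τ.commutes (x : K)
  rw [this]

theorem exists_place_comp (τ : L ≃ₐ[K] L) (w : Pl L) :
    ∃ w' : Pl L, w'.under (𝓞 K) = w.under (𝓞 K) ∧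
      ∀ y : L, w'.valuation L y = w.valuation L (τ y) :=
  ⟨galPlaces_comp τ w, galPlaces_under τ w, galPlaces_valuation τ w⟩

theorem exists_algEquiv_of_under_eq [IsGalois K L] (w w' : Pl L)
    (h : w.under (𝓞 K) = w'.under (𝓞 K)) :
    ∃ τ : L ≃ₐ[K] L, ∀ y : L, w'.valuation L y = w.valuation L (τ y) := by
  have : IsGaloisGroup (L ≃ₐ[K] L) (𝓞 K) (𝓞 L) := IsGaloisGroup.of_isFractionRing _ _ _ K L
  have h1 : w.asIdeal.LiesOver (w.under (𝓞 K)).asIdeal := ⟨rfl⟩
  have h2 : w'.asIdeal.LiesOver (w.under (𝓞 K)).asIdeal := ⟨by rw [h]; rfl⟩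
  obtain ⟨σ, hσ⟩ := Ideal.exists_smul_eq_of_isGaloisGroup (w.under (𝓞 K)).asIdeal w.asIdeal
    w'.asIdeal (L ≃ₐ[K] L)
  refine ⟨σ⁻¹, fun y => ?_⟩
  have hw : w' = galPlaces_comp σ⁻¹ w := by
    apply HeightOneSpectrum.ext
    rw [← hσ]
    ext x
    rw [Ideal.mem_pointwise_smul_iff_inv_smul_mem, galPlaces_mem_comp]
    rfl
  rw [← galPlaces_valuation, ← hw]

end Fermat.Agent.S55.H
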