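import Fermat.Agent.S55.H.WeakApprox
import Fermat.Agent.S55.H.GalPlaces

/-!
# S55, block [H]: at a split place every element is a norm modulo `v ^ (m+1)`
-/

set_option autoImplicit false

namespace Fermat.Agent.S55.H

open NumberField IsDedekindDomain

variable {K : Type*} [Field K] [NumberField K] {L : Type*} [Field L] [NumberField L] [Algebra K L]

/-- the decomposition group of `w`, in terms of valuations -/
def splitDec (K : Type*) [Field K] [NumberField K] {L : Type*} [Field L] [NumberField L]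
    [Algebra K L] (w : Pl L) : Subgroup (L ≃ₐ[K] L) where
  carrier := {τ | ∀ y : L, w.valuation L (τ y) = w.valuation L y}
  one_mem' := fun _ => rfl
  mul_mem' := by
    intro σ τ hσ hτ y
    show w.valuation L (σ (τ y)) = _
    rw [hσ, hτ]
  inv_mem' := by
    intro σ hσ y
    have := hσ (σ⁻¹ y)
    rw [show σ (σ⁻¹ y) = y from σ.apply_symm_apply y] at this
    exact this.symm

theorem split_dec_eq_bot [IsGalois K L] (hp : (Module.finrank K L).Prime)
    (w w' : Pl L) (h : w.under (𝓞 K) = w'.under (𝓞 K)) (hne : w ≠ w') : splitDec K w = ⊥ := by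
  have hcard : Nat.card (L ≃ₐ[K] L) = Module.finrank K L := IsGalois.card_aut_eq_finrank K L
  have : Fact (Nat.card (L ≃ₐ[K] L)).Prime := ⟨hcard ▸ hp⟩
  rcases (splitDec K w).eq_bot_or_eq_top_of_prime_card with h0 | h0
  · exact h0
  · exfalso
    obtain ⟨τ, hτ⟩ := exists_algEquiv_of_under_eq (K := K) w w' h
    have hτD : τ ∈ splitDec K w := h0 ▸ Subgroup.mem_top τ
    exact hne (eq_of_valuation_eq w w' fun y => by rw [hτ y, hτD y])

theorem split_lt_of_pow_lt {a b : WithZero (Multiplicative ℤ)} {e : ℕ} (h : a ^ e < b ^ e) :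
    a < b :=
  lt_of_pow_lt_pow_left₀ e zero_le h

theorem nrm_eq_top_of_split [IsGalois K L] (hp : (Module.finrank K L).Prime) (v : Pl K)
    (w w' : Pl L) (hw : w.under (𝓞 K) = v) (hw' : w'.under (𝓞 K) = v) (hne : w ≠ w') (m : ℕ) :
    nrm L v m = ⊤ := by
  classical
  rw [eq_top_iff]
  intro x _
  have hD := split_dec_eq_bot (K := K) hp w w' (hw.trans hw'.symm) hne
  choose wτ _ hwτ using fun τ : L ≃ₐ[K] L => exists_place_comp τ w
  have hwτ1 : wτ 1 = w := eq_of_valuation_eq _ _ fun y => by rw [hwτ]; rfl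
  have hwτne : ∀ τ : L ≃ₐ[K] L, τ ≠ 1 → wτ τ ≠ w := by
    intro τ hτ h
    apply hτ
    have : τ ∈ splitDec K w := fun y => by rw [← hwτ, h]
    rwa [hD, Subgroup.mem_bot] at this
  have : w.asIdeal.LiesOver v.asIdeal := ⟨by rw [← hw]; rfl⟩
  set e := v.asIdeal.ramificationIdx' w.asIdeal with he
  set x' : Lˣ := Units.map (algebraMap K L : K →* L) x with hx'
  obtain ⟨y, hy⟩ := exists_approx (K := L) (Finset.univ.image wτ)
    (fun w'' => if w'' = w then x' else 1) (e * m)
  have hy1 : y / x' ∈ nearOne w (e * m) := by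
    have := hy w (Finset.mem_image.2 ⟨1, Finset.mem_univ _, hwτ1⟩)
    simpa using this
  have hyτ : ∀ τ : L ≃ₐ[K] L, τ ≠ 1 →
      Units.map (τ : L →* L) y ∈ nearOne w (e * m) := by
    intro τ hτ
    have := hy (wτ τ) (Finset.mem_image.2 ⟨τ, Finset.mem_univ _, rfl⟩)
    rw [if_neg (hwτne τ hτ), div_one, mem_nearOne_iff, hwτ, map_sub, map_one] at this
    exact this
  have hprod : Units.map (algebraMap K L : K →* L) (normU K L y)
      = ∏ τ : L ≃ₐ[K] L, Units.map (τ : L →* L) y := by
    ext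
    rw [Units.coe_prod]
    exact Algebra.norm_eq_prod_automorphisms K (y : L)
  have hmem : Units.map (algebraMap K L : K →* L) (normU K L y / x) ∈ nearOne w (e * m) := by
    rw [map_div, hprod, ← Finset.mul_prod_erase Finset.univ _ (Finset.mem_univ (1 : L ≃ₐ[K] L))]
    have h1 : Units.map (((1 : L ≃ₐ[K] L) : L ≃ₐ[K] L) : L →* L) y = y := by
      ext; rfl
    rw [h1, mul_div_right_comm]
    refine Subgroup.mul_mem _ hy1 (Subgroup.prod_mem _ fun τ hτ => hyτ τ (Finset.ne_of_mem_erase hτ))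
  rw [mem_nrm_iff]
  refine ⟨y, ?_⟩
  have hinv : x / normU K L y = (normU K L y / x)⁻¹ := by rw [inv_div]
  rw [hinv]
  refine Subgroup.inv_mem _ ?_
  rw [mem_nearOne_iff] at hmem ⊢
  have hz : ((Units.map (algebraMap K L : K →* L) (normU K L y / x) : Lˣ) : L) - 1
      = algebraMap K L (((normU K L y / x : Kˣ) : K) - 1) := by
    rw [map_sub, map_one]; rfl
  rw [hz, ← HeightOneSpectrum.valuation_liesOver L v w] at hmem
  refine split_lt_of_pow_lt (e := e) (lt_of_lt_of_eq hmem ?_)
  rw [← WithZero.exp_nsmul]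
  congr 1
  simp

end Fermat.Agent.S55.H
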