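import Fermat.Agent.S55.H.Defs

/-!
# S55, block [H], package H-VN : the valuation of a norm
-/

set_option autoImplicit false
set_option linter.unusedSectionVars false

namespace Fermat.Agent.S55.H

open NumberField IsDedekindDomain

variable {K : Type*} [Field K] [NumberField K] {L : Type*} [Field L] [NumberField L] [Algebra K L]

/-- the places of `L` over `v` form a finite set -/
theorem ValNorm_finite_over (v : Pl K) : {w : Pl L | w.under (𝓞 K) = v}.Finite := by
  have h := IsDedekindDomain.primesOver_finite v.asIdeal (𝓞 L)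
  refine Set.Finite.of_finite_image (f := HeightOneSpectrum.asIdeal) (h.subset ?_) ?_
  · rintro _ ⟨w, hw, rfl⟩
    exact ⟨w.isPrime, ⟨by rw [← hw]; rfl⟩⟩
  · intro a _ b _ hab
    exact HeightOneSpectrum.ext hab

/-- the finite set of places of `L` over `v` -/
noncomputable def ValNorm_over (L : Type*) [Field L] [NumberField L] [Algebra K L] (v : Pl K) :
    Finset (Pl L) := (ValNorm_finite_over (L := L) v).toFinset

theorem ValNorm_mem_over (v : Pl K) (w : Pl L) : w ∈ ValNorm_over L v ↔ w.under (𝓞 K) = v := by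
  simp [ValNorm_over]

/-- the counting function on nonzero ideals -/
noncomputable def ValNorm_cnt {R : Type*} [CommRing R] [IsDedekindDomain R]
    (v : HeightOneSpectrum R) (I : Ideal R) : ℕ :=
  (Associates.mk v.asIdeal).count (Associates.mk I).factors

section cnt

variable {R : Type*} [CommRing R] [IsDedekindDomain R] (v : HeightOneSpectrum R)

theorem ValNorm_cnt_mul {I J : Ideal R} (hI : I ≠ 0) (hJ : J ≠ 0) :
    ValNorm_cnt v (I * J) = ValNorm_cnt v I + ValNorm_cnt v J := by
  unfold ValNorm_cnt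
  rw [Associates.mk_mul_mk.symm]
  exact Associates.count_mul (Associates.mk_ne_zero.2 hI) (Associates.mk_ne_zero.2 hJ)
    v.associates_irreducible

theorem ValNorm_cnt_one : ValNorm_cnt v (1 : Ideal R) = 0 := by
  unfold ValNorm_cnt
  rw [Associates.mk_one, Associates.factors_one, Associates.count_zero v.associates_irreducible]

theorem ValNorm_cnt_pow {I : Ideal R} (hI : I ≠ 0) (n : ℕ) :
    ValNorm_cnt v (I ^ n) = n * ValNorm_cnt v I := by
  induction n with
  | zero => rw [pow_zero, ValNorm_cnt_one, zero_mul]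
  | succ n ih => rw [pow_succ, ValNorm_cnt_mul v (pow_ne_zero n hI) hI, ih]; ring

theorem ValNorm_cnt_self : ValNorm_cnt v v.asIdeal = 1 := by
  unfold ValNorm_cnt
  exact Associates.count_self v.associates_irreducible

theorem ValNorm_cnt_ne {w : HeightOneSpectrum R} (h : w ≠ v) : ValNorm_cnt v w.asIdeal = 0 := by
  unfold ValNorm_cnt
  refine Associates.count_eq_zero_of_ne v.associates_irreducible w.associates_irreducible ?_
  intro h'
  apply h
  apply HeightOneSpectrum.ext
  rw [Associates.mk_eq_mk_iff_associated, associated_iff_eq] at h'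
  exact h'.symm

theorem ValNorm_intValuation {r : R} (hr : r ≠ 0) :
    v.intValuation r = WithZero.exp (-(ValNorm_cnt v (Ideal.span {r}) : ℤ)) :=
  v.intValuation_if_neg hr

end cnt

/-- the ideal version of the formula -/
theorem ValNorm_cnt_relNorm (v : Pl K) (I : Ideal (𝓞 L)) (hI : I ≠ ⊥) :
    ValNorm_cnt v (Ideal.relNorm (𝓞 K) I) =
      ∑ w ∈ ValNorm_over L v, w.asIdeal.inertiaDeg (𝓞 K) * ValNorm_cnt w I := by
  classical
  suffices h : I ≠ 0 ∧ ValNorm_cnt v (Ideal.relNorm (𝓞 K) I) =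
      ∑ w ∈ ValNorm_over L v, w.asIdeal.inertiaDeg (𝓞 K) * ValNorm_cnt w I from h.2
  rw [← Ideal.prod_normalizedFactors_eq_self hI]
  refine Multiset.prod_induction (fun I : Ideal (𝓞 L) => I ≠ 0 ∧
    ValNorm_cnt v (Ideal.relNorm (𝓞 K) I) =
      ∑ w ∈ ValNorm_over L v, w.asIdeal.inertiaDeg (𝓞 K) * ValNorm_cnt w I) _ ?_ ?_ ?_
  · rintro I J ⟨hI0, hI1⟩ ⟨hJ0, hJ1⟩
    refine ⟨mul_ne_zero hI0 hJ0, ?_⟩
    have h1 : Ideal.relNorm (𝓞 K) I ≠ 0 := fun h => hI0 (Ideal.relNorm_eq_bot_iff.1 h)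
    have h2 : Ideal.relNorm (𝓞 K) J ≠ 0 := fun h => hJ0 (Ideal.relNorm_eq_bot_iff.1 h)
    rw [map_mul, ValNorm_cnt_mul v h1 h2, hI1, hJ1, ← Finset.sum_add_distrib]
    refine Finset.sum_congr rfl fun w _ => ?_
    rw [ValNorm_cnt_mul w hI0 hJ0, mul_add]
  · refine ⟨one_ne_zero, ?_⟩
    rw [map_one, ValNorm_cnt_one]
    symm
    exact Finset.sum_eq_zero fun w _ => by rw [ValNorm_cnt_one, mul_zero]
  · intro Q hQ
    have hQ' : Q ≠ ⊥ := UniqueFactorizationMonoid.ne_zero_of_mem_normalizedFactors hQ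
    rw [Ideal.mem_normalizedFactors_iff hI] at hQ
    refine ⟨hQ', ?_⟩
    have hQmax : Q.IsMaximal := Ring.DimensionLEOne.maximalOfPrime hQ' hQ.1
    let wQ : Pl L := ⟨Q, hQ.1, hQ'⟩
    let P : Pl K := wQ.under (𝓞 K)
    have hPmax : P.asIdeal.IsMaximal := P.isMaximal
    have hlies : Q.LiesOver P.asIdeal := ⟨rfl⟩
    rw [Ideal.relNorm_eq_pow_of_isMaximal Q P.asIdeal, ValNorm_cnt_pow v P.ne_bot]
    by_cases hPv : P = v
    · rw [← hPv, ValNorm_cnt_self, mul_one]
      rw [Finset.sum_eq_single wQ]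
      · rw [show ValNorm_cnt wQ Q = 1 from ValNorm_cnt_self wQ, mul_one]
      · intro w _ hw
        rw [show ValNorm_cnt w Q = 0 from ValNorm_cnt_ne w (w := wQ) (Ne.symm hw), mul_zero]
      · intro h
        exact absurd ((ValNorm_mem_over P wQ).2 rfl) h
    · rw [ValNorm_cnt_ne v hPv, mul_zero]
      symm
      refine Finset.sum_eq_zero fun w hw => ?_
      have hw' : w ≠ wQ := by
        rintro rfl
        exact hPv ((ValNorm_mem_over v wQ).1 hw)
      rw [show ValNorm_cnt w Q = 0 from ValNorm_cnt_ne w (w := wQ) (Ne.symm hw'), mul_zero]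

/-- the formula for integers -/
theorem ValNorm_valuation_norm_int (v : Pl K) (a : 𝓞 L) (ha : a ≠ 0) :
    v.valuation K (Algebra.norm K (a : L)) =
      ∏ w ∈ ValNorm_over L v, w.valuation L (a : L) ^ (w.asIdeal.inertiaDeg (𝓞 K)) := by
  have h1 : Algebra.norm K (a : L) = algebraMap (𝓞 K) K (Algebra.intNorm (𝓞 K) (𝓞 L) a) :=
    (Algebra.algebraMap_intNorm (A := 𝓞 K) (K := K) (L := L) (B := 𝓞 L) a).symm
  have h0 : Algebra.intNorm (𝓞 K) (𝓞 L) a ≠ 0 := Algebra.intNorm_ne_zero.2 ha
  rw [h1, HeightOneSpectrum.valuation_of_algebraMap, ValNorm_intValuation v h0,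
    ← Ideal.relNorm_singleton, ValNorm_cnt_relNorm v _ (by simpa using ha)]
  have h2 : ∀ w : Pl L, w.valuation L (a : L) =
      WithZero.exp (-(ValNorm_cnt w (Ideal.span {a}) : ℤ)) := fun w => by
    rw [← ValNorm_intValuation w ha]
    exact HeightOneSpectrum.valuation_of_algebraMap w a
  simp only [h2]
  have h3 : ∀ (s : Finset (Pl L)) (f g : Pl L → ℕ),
      WithZero.exp (-((∑ w ∈ s, f w * g w : ℕ) : ℤ)) =
        ∏ w ∈ s, (WithZero.exp (-(g w : ℤ)) : WithZero (Multiplicative ℤ)) ^ f w := by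
    intro s f g
    classical
    induction s using Finset.induction_on with
    | empty => simp
    | insert a s ha ih =>
      rw [Finset.sum_insert ha, Finset.prod_insert ha, ← ih, ← WithZero.exp_nsmul,
        ← WithZero.exp_add]
      congr 1
      push_cast
      simp only [nsmul_eq_mul]
      ring
  exact h3 _ _ _

/-- **the general formula** -/
theorem valuation_norm_eq_prod (v : Pl K) (y : L) :
    v.valuation K (Algebra.norm K y) =
      ∏ w ∈ ValNorm_over L v, w.valuation L y ^ (w.asIdeal.inertiaDeg (𝓞 K)) := by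
  obtain ⟨a, b, hb, rfl⟩ := IsFractionRing.div_surjective (A := 𝓞 L) y
  have hb0 : b ≠ 0 := nonZeroDivisors.ne_zero hb
  by_cases ha : a = 0
  · subst ha
    obtain ⟨w, hw⟩ : ∃ w : Pl L, w.under (𝓞 K) = v := by
      obtain ⟨Q, hQ1, hQ2⟩ := Ideal.exists_maximal_ideal_liesOver_of_isIntegral (S := 𝓞 L) v.asIdeal
      have hQ0 : Q ≠ ⊥ := by
        intro h
        subst h
        apply v.ne_bot
        rw [hQ2.over]
        exact Ideal.under_bot (𝓞 K) (𝓞 L)
      refine ⟨⟨Q, hQ1.isPrime, hQ0⟩, ?_⟩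
      apply HeightOneSpectrum.ext
      exact hQ2.over.symm
    rw [map_zero, zero_div, Algebra.norm_zero, map_zero]
    symm
    refine Finset.prod_eq_zero ((ValNorm_mem_over v w).2 hw) ?_
    rw [map_zero]
    exact zero_pow (Ideal.inertiaDeg_pos w.asIdeal (𝓞 K)).ne'
  · have e1 := ValNorm_valuation_norm_int v a ha
    have e2 := ValNorm_valuation_norm_int v b hb0
    have e3 : v.valuation K (Algebra.norm K (algebraMap (𝓞 L) L a / algebraMap (𝓞 L) L b)) =
        v.valuation K (Algebra.norm K (a : L)) / v.valuation K (Algebra.norm K (b : L)) := by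
      have hbL : (b : L) ≠ 0 := by
        intro h
        exact hb0 (by exact_mod_cast h)
      have hnb : Algebra.norm K (b : L) ≠ 0 := Algebra.norm_ne_zero_iff.2 hbL
      have hmul : Algebra.norm K (algebraMap (𝓞 L) L a / algebraMap (𝓞 L) L b) *
          Algebra.norm K (b : L) = Algebra.norm K (a : L) := by
        rw [← map_mul]
        congr 1
        exact div_mul_cancel₀ _ hbL
      rw [← hmul, map_mul, mul_div_assoc, div_self ((map_ne_zero _).2 hnb), mul_one]
    rw [e3, e1, e2, ← Finset.prod_div_distrib]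
    refine Finset.prod_congr rfl fun w _ => ?_
    rw [map_div₀, div_pow]

theorem valuation_norm_eq_one (v : Pl K) (y : L)
    (h : ∀ w : Pl L, w.under (𝓞 K) = v → w.valuation L y = 1) :
    v.valuation K (Algebra.norm K y) = 1 := by
  rw [valuation_norm_eq_prod]
  refine Finset.prod_eq_one fun w hw => ?_
  rw [h w ((ValNorm_mem_over v w).1 hw), one_pow]

theorem valuation_norm_eq_pow (v : Pl K) (w₀ : Pl L) (h₀ : w₀.under (𝓞 K) = v) (y : L)
    (h : ∀ w : Pl L, w.under (𝓞 K) = v → w ≠ w₀ → w.valuation L y = 1) :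
    v.valuation K (Algebra.norm K y) = w₀.valuation L y ^ (w₀.asIdeal.inertiaDeg (𝓞 K)) := by
  rw [valuation_norm_eq_prod, Finset.prod_eq_single w₀]
  · intro w hw hne
    rw [h w ((ValNorm_mem_over v w).1 hw) hne, one_pow]
  · intro hn
    exact absurd ((ValNorm_mem_over v w₀).2 h₀) hn

theorem inertiaDeg_eq_one_of_absNorm_eq (v : Pl K) (w : Pl L) (h : w.under (𝓞 K) = v)
    (hN : Ideal.absNorm w.asIdeal = Ideal.absNorm v.asIdeal) : w.asIdeal.inertiaDeg (𝓞 K) = 1 := by
  have hlies : w.asIdeal.LiesOver v.asIdeal := ⟨by rw [← h]; rfl⟩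
  have hw : w.asIdeal.IsPrime := w.isPrime
  have h1 := Ideal.absNorm_pow_inertiaDeg v.asIdeal w.asIdeal
  rw [hN] at h1
  have h0 : Ideal.absNorm v.asIdeal ≠ 0 := by
    rw [Ne, Ideal.absNorm_eq_zero_iff]
    exact v.ne_bot
  have h2 : Ideal.absNorm v.asIdeal ≠ 1 := by
    rw [Ne, Ideal.absNorm_eq_one_iff]
    exact v.isPrime.ne_top
  have h3 : 2 ≤ Ideal.absNorm v.asIdeal := by omega
  exact Nat.pow_right_injective h3 (by simpa using h1)

set_option linter.deprecated false in
theorem inertiaDeg_eq_finrank_of_unique (v : Pl K) (w : Pl L) (h : w.under (𝓞 K) = v)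
    (huniq : ∀ w' : Pl L, w'.under (𝓞 K) = v → w' = w)
    (he : v.asIdeal.ramificationIdx' w.asIdeal = 1) :
    w.asIdeal.inertiaDeg (𝓞 K) = Module.finrank K L := by
  have hlies : w.asIdeal.LiesOver v.asIdeal := ⟨by rw [← h]; rfl⟩
  have hvmax : v.asIdeal.IsMaximal := v.isMaximal
  have hwmax : w.asIdeal.IsMaximal := w.isMaximal
  have hsum := Ideal.sum_ramification_inertia (R := 𝓞 K) (S := 𝓞 L) K L (p := v.asIdeal) v.ne_bot
  have hset : IsDedekindDomain.primesOverFinset v.asIdeal (𝓞 L) = {w.asIdeal} := by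
    ext Q
    rw [IsDedekindDomain.mem_primesOverFinset_iff v.ne_bot, Finset.mem_singleton]
    constructor
    · rintro ⟨hQ1, hQ2⟩
      have hQ0 : Q ≠ ⊥ := by
        intro h'
        subst h'
        apply v.ne_bot
        rw [hQ2.over]
        exact Ideal.under_bot (𝓞 K) (𝓞 L)
      have := huniq ⟨Q, hQ1, hQ0⟩ (HeightOneSpectrum.ext hQ2.over.symm)
      exact congrArg HeightOneSpectrum.asIdeal this
    · rintro rfl
      exact ⟨w.isPrime, hlies⟩
  rw [hset, Finset.sum_singleton, he, one_mul, Ideal.inertiaDeg'_eq_inertiaDeg] at hsum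
  exact hsum

end Fermat.Agent.S55.H
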