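import Fermat.Agent.S55.H.U.FirstIneq
import Fermat.Agent.S55.H.U.TClass
import Fermat.Agent.S55.H.LocNorm
import Fermat.Agent.S55.H.SecondIneq
import Fermat.Agent.S55.H.IndexProd
import Fermat.Agent.S55.H.FiniteIndex
import Fermat.Agent.S55.H.ValNorm
import Fermat.Agent.S55.H.Split
import Fermat.Agent.S55.H.Ram
import Fermat.Agent.S55.H.Count

/-!
# S55, block [H]: the Hasse norm theorem for cyclic extensions of prime degree
-/

set_option autoImplicit false
set_option linter.unusedSectionVars false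

namespace Fermat.Agent.S55.H

open NumberField IsDedekindDomain

/-! ### finset bookkeeping -/

theorem Main.pow_card_le_prod {ι : Type*} [DecidableEq ι] (T S : Finset ι) (hS : S ⊆ T) (f : ι → ℕ)
    (p : ℕ) (hf : ∀ v ∈ T, f v ≠ 0) (hp : ∀ v ∈ S, p ≤ f v) : p ^ S.card ≤ ∏ v ∈ T, f v := by
  calc p ^ S.card = ∏ _v ∈ S, p := by rw [Finset.prod_const]
    _ ≤ ∏ v ∈ S, f v := Finset.prod_le_prod' hp
    _ ≤ ∏ v ∈ T, f v :=
      Finset.prod_le_prod_of_subset_of_one_le' hS
        (fun v hv _ => Nat.one_le_iff_ne_zero.mpr (hf v hv))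

section

variable {K : Type*} [Field K] [NumberField K] (L : Type*) [Field L] [NumberField L] [Algebra K L]

theorem index_nrm_ne_zero (v : Pl K) (m : ℕ) : (nrm L v m).index ≠ 0 := by
  have h0 : Module.finrank K L ≠ 0 := Module.finrank_pos.ne'
  have h1 := index_powRange_sup_nearOne_ne_zero (Module.finrank K L) h0 v m
  have h2 : powRange (Module.finrank K L) K ⊔ nearOne v m ≤ nrm L v m :=
    sup_le_sup_right (powRange_le_normRange L) _
  exact ne_zero_of_dvd_ne_zero h1 (Subgroup.index_dvd_of_le h2)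

theorem le_index_nrm {p : ℕ} (hp : p.Prime) (hdeg : Module.finrank K L = p) (v : Pl K) (m : ℕ)
    (h : nrm L v m ≠ ⊤) : p ≤ (nrm L v m).index := by
  obtain ⟨x, hx⟩ : ∃ x : Kˣ, x ∉ nrm L v m := by
    by_contra hcon
    push Not at hcon
    exact h (eq_top_iff.mpr fun x _ => hcon x)
  have h0 := index_nrm_ne_zero L v m
  have hq1 : (QuotientGroup.mk x : Kˣ ⧸ nrm L v m) ≠ 1 := by
    rwa [Ne, QuotientGroup.eq_one_iff]
  have hqp : (QuotientGroup.mk x : Kˣ ⧸ nrm L v m) ^ p = 1 := by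
    rw [← QuotientGroup.mk_pow, QuotientGroup.eq_one_iff]
    apply normRange_le_nrm L v m
    apply powRange_le_normRange L
    rw [hdeg]
    exact ⟨x, rfl⟩
  have hord : orderOf (QuotientGroup.mk x : Kˣ ⧸ nrm L v m) = p := by
    have := Fact.mk hp
    exact orderOf_eq_prime hqp hq1
  have hdvd : p ∣ (nrm L v m).index := by
    rw [← hord]; exact orderOf_dvd_natCard _
  exact Nat.le_of_dvd (Nat.pos_of_ne_zero h0) hdvd

theorem map_normU_le_unit (T : Set (Pl K)) :
    ((above L T).unit L).map (normU K L) ≤ T.unit K := by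
  rintro _ ⟨y, hy, rfl⟩
  intro v hv
  refine valuation_norm_eq_one v (y : L) fun w hw => ?_
  refine hy w ?_
  change ¬ (w.under (𝓞 K) ∈ T)
  rwa [hw]


/-! ### choice of the level and of the set `T` -/

theorem exists_nrm_ne_top [IsGalois K L] {p : ℕ} (hp : p.Prime) (hdeg : Module.finrank K L = p)
    (v : Pl K) (hv : ∀ w w' : Pl L, w.under (𝓞 K) = v → w'.under (𝓞 K) = v → w = w') :
    ∃ m : ℕ, nrm L v m ≠ ⊤ := by
  have hcard : Nat.card Gal(L/K) = p := by rw [IsGalois.card_aut_eq_finrank, hdeg]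
  have hcyc : IsCyclic Gal(L/K) := by
    have := Fact.mk hp
    exact isCyclic_of_prime_card hcard
  obtain ⟨m, x, hx0, hx⟩ := exists_not_nrm hcyc (by rw [hdeg]; exact hp.one_lt) v hv
  refine ⟨m, fun htop => ?_⟩
  have hmem : Units.mk0 x hx0 ∈ nrm L v m := by rw [htop]; trivial
  obtain ⟨y, hy⟩ := (mem_nrm_iff L v m _).mp hmem
  refine hx (y : L) y.ne_zero (le_of_lt ?_)
  rw [mem_nearOne_iff] at hy
  simpa using hy

theorem exists_level [IsGalois K L] {p : ℕ} (hp : p.Prime) (hdeg : Module.finrank K L = p)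
    (T : Finset (Pl K)) :
    ∃ m₀ : ℕ, ∀ m, m₀ ≤ m → ∀ v ∈ nonsplit L (T : Set (Pl K)), nrm L v m ≠ ⊤ := by
  classical
  have h : ∀ v : Pl K, ∃ m : ℕ, v ∈ nonsplit L (T : Set (Pl K)) → nrm L v m ≠ ⊤ := by
    intro v
    by_cases hv : v ∈ nonsplit L (T : Set (Pl K))
    · obtain ⟨m, hm⟩ := exists_nrm_ne_top L hp hdeg v hv.2
      exact ⟨m, fun _ => hm⟩
    · exact ⟨0, fun h => absurd h hv⟩
  choose f hf using h
  refine ⟨T.sup f, fun m hm v hv htop => hf v hv ?_⟩
  have hvT : v ∈ T := by simpa using hv.1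
  have hle : f v ≤ m := le_trans (Finset.le_sup hvT) hm
  exact top_le_iff.mp (htop ▸ nrm_anti L v hle)

theorem exists_good_set (T₁ : Set (Pl K)) (hT₁ : T₁.Finite) :
    ∃ T : Finset (Pl K), T₁ ⊆ (T : Set (Pl K)) ∧ UnramOutside L (T : Set (Pl K)) ∧
      TPrincipal K (T : Set (Pl K)) ∧ TPrincipal L (above L (T : Set (Pl K))) := by
  obtain ⟨TK, hTKf, hTK⟩ := exists_tprincipal K
  obtain ⟨TL, hTLf, hTL⟩ := exists_tprincipal L
  obtain ⟨TR, hTRf, hTR⟩ := exists_unramOutside (K := K) L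
  have hfin : (T₁ ∪ TK ∪ TR ∪ (fun w : Pl L => w.under (𝓞 K)) '' TL).Finite :=
    ((hT₁.union hTKf).union hTRf).union (hTLf.image _)
  refine ⟨hfin.toFinset, ?_, hTR _ ?_, hTK _ ?_, hTL _ ?_⟩
  · intro v hv; simp [hv]
  · intro v hv; simp [hv]
  · intro v hv; simp [hv]
  · intro w hw
    change w.under (𝓞 K) ∈ (hfin.toFinset : Set (Pl K))
    rw [Set.Finite.coe_toFinset]
    exact Or.inr ⟨w, hw, rfl⟩

/-! ### the exported theorems -/

theorem locNorm_eq_top_of_split [IsGalois K L] (hp : (Module.finrank K L).Prime) (v : Pl K)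
    (w w' : Pl L) (hw : w.under (𝓞 K) = v) (hw' : w'.under (𝓞 K) = v) (hne : w ≠ w') :
    locNorm L v = ⊤ := by
  rw [locNorm]
  simp [nrm_eq_top_of_split hp v w w' hw hw' hne]

/-- the elements whose valuation at `v` is divisible by `p`. -/
noncomputable def valDvd (p : ℕ) (v : Pl K) : Subgroup Kˣ :=
  (powMonoidHom p : Multiplicative ℤ →* Multiplicative ℤ).range.comap v.valuationOfNeZero

theorem mem_valDvd_iff (p : ℕ) (v : Pl K) (x : Kˣ) :
    x ∈ valDvd p v ↔ ∃ j : ℤ, v.valuation K (x : K) = WithZero.exp ((p : ℤ) * j) := by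
  rw [valDvd, Subgroup.mem_comap, MonoidHom.mem_range]
  constructor
  · rintro ⟨t, ht⟩
    refine ⟨Multiplicative.toAdd t, ?_⟩
    rw [← HeightOneSpectrum.valuationOfNeZero_eq, ← ht]
    simp only [powMonoidHom_apply]
    rw [WithZero.exp, mul_comm, ← Int.toAdd_pow, ofAdd_toAdd]
  · rintro ⟨j, hj⟩
    refine ⟨Multiplicative.ofAdd j, ?_⟩
    rw [← WithZero.coe_inj, HeightOneSpectrum.valuationOfNeZero_eq, hj]
    simp only [powMonoidHom_apply]
    rw [WithZero.exp, ← ofAdd_nsmul, nsmul_eq_mul]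

theorem valDvd_ne_top {p : ℕ} (hp : p.Prime) (v : Pl K) : valDvd p v ≠ ⊤ := by
  intro htop
  obtain ⟨π, hπ⟩ := v.valuation_exists_uniformizer K
  have hπ0 : π ≠ 0 := by
    rintro rfl
    rw [map_zero] at hπ
    exact WithZero.exp_ne_zero hπ.symm
  have hmem : Units.mk0 π hπ0 ∈ valDvd p v := by rw [htop]; trivial
  obtain ⟨j, hj⟩ := (mem_valDvd_iff p v _).mp hmem
  rw [Units.val_mk0, hπ, WithZero.exp_inj] at hj
  have h1 : (p : ℤ) ∣ 1 := ⟨-j, by linarith⟩
  have h2 : p ∣ 1 := by exact_mod_cast h1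
  exact hp.one_lt.ne' (Nat.dvd_one.mp h2)

end

/-! ### the main theorems (universe `0` because of `first_inequality`) -/

section Main

variable {K : Type} [Field K] [NumberField K] (L : Type) [Field L] [NumberField L] [Algebra K L]

theorem main_core [IsGalois K L] {p : ℕ} (hp : p.Prime) (hdeg : Module.finrank K L = p)
    [IsTotallyComplex K] (T : Finset (Pl K)) (hram : UnramOutside L (T : Set (Pl K)))
    (hK : TPrincipal K (T : Set (Pl K))) (hL : TPrincipal L (above L (T : Set (Pl K)))) (m : ℕ)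
    (hm : ∀ v ∈ nonsplit L (T : Set (Pl K)), nrm L v m ≠ ⊤) :
    ((T : Set (Pl K)).unit K ⊓ ⨅ v ∈ T, nrm L v m ≤
        ((above L (T : Set (Pl K))).unit L).map (normU K L)) ∧
      ∀ v ∈ nonsplit L (T : Set (Pl K)), (nrm L v m).index = p := by
  classical
  set S : Finset (Pl K) := T.filter (fun v => v ∈ nonsplit L (T : Set (Pl K))) with hSdef
  have hST : S ⊆ T := Finset.filter_subset _ _
  have hScoe : (S : Set (Pl K)) = nonsplit L (T : Set (Pl K)) := by
    ext v
    simp only [hSdef, Finset.coe_filter, Set.mem_ofPred_eq]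
    constructor
    · exact fun h => h.2
    · exact fun h => ⟨h.1, h⟩
  have hcard : (nonsplit L (T : Set (Pl K))).ncard = S.card := by
    rw [← hScoe, Set.ncard_coe_finset]
  have hmemS : ∀ v, v ∈ S ↔ v ∈ nonsplit L (T : Set (Pl K)) := by
    intro v; rw [← hScoe]; simp
  set H : Subgroup Kˣ := ⨅ v ∈ T, nrm L v m with hH
  have hidx : H.index = ∏ v ∈ T, (nrm L v m).index :=
    index_iInf_eq_prod T (fun v => nrm L v m) m (fun v _ => nearOne_le_nrm L v m)
  have hne : ∀ v ∈ T, (nrm L v m).index ≠ 0 := fun v _ => index_nrm_ne_zero L v m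
  have hge : ∀ v ∈ S, p ≤ (nrm L v m).index := fun v hv =>
    le_index_nrm L hp hdeg v m (hm v ((hmemS v).mp hv))
  have hNH : normRange (K := K) L ≤ H := by
    rw [hH]
    exact le_iInf fun v => le_iInf fun _ => normRange_le_nrm L v m
  have hcore := count_core ((T : Set (Pl K)).unit K) H
    (((above L (T : Set (Pl K))).unit L).map (normU K L)) p S.card hp
    (map_normU_le_unit L _)
    (by
      rintro _ ⟨y, -, rfl⟩
      exact hNH ⟨y, rfl⟩)
    (by
      rw [← hcard]
      exact first_inequality hp hdeg (T : Set (Pl K)) T.finite_toSet hram hK)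
    (by
      rw [← hdeg]
      refine (index_le_finrank (L := L) (T : Set (Pl K)) T.finite_toSet hK hL H hNH m ?_).2
      intro x hx
      rw [hH]
      simp only [Subgroup.mem_iInf]
      intro v hv
      exact nearOne_le_nrm L v m (hx v (by simpa using hv)))
    (by
      rw [hidx]
      exact Finset.prod_ne_zero_iff.mpr hne)
    (by
      rw [hidx]
      exact Main.pow_card_le_prod T S hST _ p hne hge)
  refine ⟨hcore.1, fun v hv => ?_⟩
  have hvS : v ∈ S := (hmemS v).mpr hv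
  have hvT : v ∈ T := hST hvS
  refine le_antisymm ?_ (hge v hvS)
  have h1 : p ^ (S.erase v).card ≤ ∏ v' ∈ T.erase v, (nrm L v' m).index :=
    Main.pow_card_le_prod (T.erase v) (S.erase v) (Finset.erase_subset_erase v hST) _ p
      (fun v' hv' => hne v' (Finset.mem_of_mem_erase hv'))
      (fun v' hv' => hge v' (Finset.mem_of_mem_erase hv'))
  have h2 : (nrm L v m).index * ∏ v' ∈ T.erase v, (nrm L v' m).index = p ^ S.card := by
    rw [Finset.mul_prod_erase T (fun v' => (nrm L v' m).index) hvT, ← hidx, hcore.2]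
  have h3 : S.card = (S.erase v).card + 1 := by
    rw [Finset.card_erase_of_mem hvS]
    have : 0 < S.card := Finset.card_pos.mpr ⟨v, hvS⟩
    omega
  have hpos : 0 < p ^ (S.erase v).card := pow_pos hp.pos _
  have h4 : (nrm L v m).index * p ^ (S.erase v).card ≤ p * p ^ (S.erase v).card := by
    calc (nrm L v m).index * p ^ (S.erase v).card
        ≤ (nrm L v m).index * ∏ v' ∈ T.erase v, (nrm L v' m).index := Nat.mul_le_mul_left _ h1
      _ = p ^ S.card := h2
      _ = p * p ^ (S.erase v).card := by rw [h3, pow_succ, mul_comm]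
  exact Nat.le_of_mul_le_mul_right h4 hpos

/-- **Hasse norm theorem** for cyclic extensions of prime degree of a totally complex field. -/
theorem hnt [IsGalois K L] {p : ℕ} (hp : p.Prime) (hdeg : Module.finrank K L = p)
    [IsTotallyComplex K] (a : Kˣ) (ha : ∀ v : Pl K, a ∈ locNorm L v) :
    a ∈ normRange (K := K) L := by
  obtain ⟨T, hT₁, hram, hK, hL⟩ := exists_good_set L _ (finite_valuation_ne_one a)
  obtain ⟨m, hm⟩ := exists_level L hp hdeg T
  have hcore := (main_core L hp hdeg T hram hK hL m (hm m le_rfl)).1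
  have haE : a ∈ (T : Set (Pl K)).unit K := by
    intro v hv
    by_contra hne
    exact hv (hT₁ hne)
  have haH : a ∈ ⨅ v ∈ T, nrm L v m := by
    simp only [Subgroup.mem_iInf]
    exact fun v _ => locNorm_le_nrm L v m (ha v)
  obtain ⟨y, -, hy⟩ := hcore ⟨haE, haH⟩
  exact ⟨y, hy⟩

theorem mem_locNorm_of_unram [IsGalois K L] {p : ℕ} (hp : p.Prime)
    (hdeg : Module.finrank K L = p) [IsTotallyComplex K] (v : Pl K)
    (hv : ∀ w : Pl L, w.under (𝓞 K) = v → v.asIdeal.ramificationIdx' w.asIdeal = 1)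
    (a : Kˣ) (j : ℤ) (ha : v.valuation K (a : K) = WithZero.exp ((p : ℤ) * j)) :
    a ∈ locNorm L v := by
  by_cases hsplit : ∃ w w' : Pl L, w.under (𝓞 K) = v ∧ w'.under (𝓞 K) = v ∧ w ≠ w'
  · obtain ⟨w, w', hw, hw', hne⟩ := hsplit
    rw [locNorm_eq_top_of_split L (hdeg ▸ hp) v w w' hw hw' hne]
    trivial
  have hns : ∀ w w' : Pl L, w.under (𝓞 K) = v → w'.under (𝓞 K) = v → w = w' := by
    intro w w' hw hw'
    by_contra hne
    exact hsplit ⟨w, w', hw, hw', hne⟩
  obtain ⟨w₀, hw₀⟩ := exists_under_eq (L := L) v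
  have hf : w₀.asIdeal.inertiaDeg (𝓞 K) = p := by
    rw [← hdeg]
    exact inertiaDeg_eq_finrank_of_unique v w₀ hw₀ (fun w' hw' => hns w' w₀ hw' hw₀) (hv w₀ hw₀)
  rw [mem_locNorm_iff]
  intro n
  obtain ⟨T, hT₁, hram, hK, hL⟩ := exists_good_set L {v} (Set.finite_singleton v)
  obtain ⟨m₀, hm₀⟩ := exists_level L hp hdeg T
  have hvT : v ∈ (T : Set (Pl K)) := hT₁ rfl
  have hidx : (nrm L v (max n m₀)).index = p :=
    (main_core L hp hdeg T hram hK hL (max n m₀) (hm₀ _ (le_max_right _ _))).2 v ⟨hvT, hns⟩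
  have hle : nrm L v (max n m₀) ≤ valDvd p v := by
    refine sup_le ?_ ?_
    · rintro _ ⟨y, rfl⟩
      rw [mem_valDvd_iff]
      have h1 := valuation_norm_eq_pow v w₀ hw₀ (y : L)
        (fun w hw hne => absurd (hns w w₀ hw hw₀) hne)
      rw [hf] at h1
      refine ⟨Multiplicative.toAdd (w₀.valuationOfNeZero y), ?_⟩
      change v.valuation K (Algebra.norm K (y : L)) = _
      rw [h1, ← HeightOneSpectrum.valuationOfNeZero_eq, ← WithZero.coe_pow, WithZero.exp,
        mul_comm, ← Int.toAdd_pow, ofAdd_toAdd]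
    · intro x hx
      rw [mem_valDvd_iff]
      exact ⟨0, by rw [val_eq_one_of_mem_nearOne hx]; simp⟩
  have hVdvd : (valDvd p v).index ∣ p := by
    have h := Subgroup.index_dvd_of_le hle
    rwa [hidx] at h
  have hV1 : (valDvd p v).index ≠ 1 := by
    rw [Ne, Subgroup.index_eq_one]; exact valDvd_ne_top hp v
  have hVp : (valDvd p v).index = p := ((Nat.dvd_prime hp).mp hVdvd).resolve_left hV1
  have hrel : (nrm L v (max n m₀)).relIndex (valDvd p v) = 1 := by
    have h := Subgroup.relIndex_mul_index hle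
    rw [hVp, hidx] at h
    exact Nat.eq_of_mul_eq_mul_right hp.pos (by rw [h, one_mul])
  have hVle : valDvd p v ≤ nrm L v (max n m₀) := Subgroup.relIndex_eq_one.mp hrel
  exact nrm_anti L v (le_max_left n m₀) (hVle ((mem_valDvd_iff p v a).mpr ⟨j, ha⟩))

end Main

end Fermat.Agent.S55.H
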