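import Fermat.Agent.S55.H.LocNormLat

/-!
# S55, block H, step (3): Galois action on the normal basis lattice
-/

set_option autoImplicit false
set_option linter.unusedSectionVars false

namespace Fermat.Agent.S55.H.LocNorm

open WithZero

section gal

variable {k L : Type*} [Field k] [Field L] [Algebra k L] [FiniteDimensional k L] [IsGalois k L]
variable {v : Valuation k ℤᵐ⁰} {b : Module.Basis (L ≃ₐ[k] L) k L}

/-- `b` is a normal basis -/
def LatNormal (b : Module.Basis (L ≃ₐ[k] L) k L) : Prop :=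
  ∀ g h : L ≃ₐ[k] L, g (b h) = b (g * h)

theorem latM_repr_galois (hn : LatNormal b) (τ : L ≃ₐ[k] L) (y : L) (g : L ≃ₐ[k] L) :
    b.repr (τ y) g = b.repr y (τ⁻¹ * g) := by
  classical
  have e : τ y = ∑ h, b.repr y h • b (τ * h) := by
    conv_lhs => rw [← b.sum_repr y]
    rw [map_sum]
    refine Finset.sum_congr rfl fun h _ => ?_
    rw [map_smul, hn]
  rw [e, map_sum, Finset.sum_apply']
  simp only [map_smul, Module.Basis.repr_self, Finsupp.smul_apply, Finsupp.single_apply,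
    smul_eq_mul, mul_ite, mul_one, mul_zero]
  rw [Finset.sum_eq_single (τ⁻¹ * g)]
  · simp
  · intro h _ hne
    rw [if_neg]
    intro h2
    apply hne
    rw [← h2]; group
  · intro h; exact absurd (Finset.mem_univ _) h

theorem latM_galois_mem (hn : LatNormal b) (τ : L ≃ₐ[k] L) {j : ℤ} {y : L}
    (hy : y ∈ latM v b j) : τ y ∈ latM v b j := by
  intro g
  rw [latM_repr_galois hn]
  exact hy _

theorem latV_galois_mem (hm : LatMul v b) (hn : LatNormal b) (τ : L ≃ₐ[k] L) {j : ℕ} {u : Lˣ}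
    (hu : u ∈ latV hm j) : Units.map (τ : L →* L) u ∈ latV hm j := by
  have h1 : (u : L) - 1 ∈ latM v b (j + 1) := hu
  have h2 := latM_galois_mem hn τ h1
  show τ (u : L) - 1 ∈ latM v b (j + 1)
  rwa [map_sub, map_one] at h2

/-- the norm as an endomorphism of `Lˣ` -/
noncomputable def normU (k L : Type*) [Field k] [Field L] [Algebra k L] : Lˣ →* Lˣ :=
  (Units.map (algebraMap k L : k →* L)).comp (Units.map (Algebra.norm k : L →* k))

theorem normU_coe (u : Lˣ) : ((normU k L u : Lˣ) : L) = ∏ τ : L ≃ₐ[k] L, τ (u : L) := by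
  show algebraMap k L (Algebra.norm k (u : L)) = _
  exact Algebra.norm_eq_prod_automorphisms k (u : L)

theorem normU_coe' (u : Lˣ) : ((normU k L u : Lˣ) : L) = algebraMap k L (Algebra.norm k (u : L)) :=
  rfl

theorem latV_normU_mem (hm : LatMul v b) (hn : LatNormal b) {j : ℕ} {u : Lˣ}
    (hu : u ∈ latV hm j) : normU k L u ∈ latV hm j := by
  have e : normU k L u = ∏ τ : L ≃ₐ[k] L, Units.map (τ : L →* L) u := by
    ext
    rw [normU_coe, Units.coe_prod]
    rfl
  rw [e]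
  exact Subgroup.prod_mem _ fun τ _ => latV_galois_mem hm hn τ hu

/-- (B2): one step of the approximation. -/
theorem latV_step (hm : LatMul v b) (hn : LatNormal b) {i : ℕ} {u : Lˣ} (hu : u ∈ latV hm i)
    (hD : ∀ τ : L ≃ₐ[k] L, Units.map (τ : L →* L) u * u⁻¹ ∈ latV hm (i + 1)) :
    ∃ z ∈ latV hm i, u * (normU k L z)⁻¹ ∈ latV hm (i + 1) := by
  classical
  set x : L := (u : L) - 1 with hx
  have hxm : x ∈ latM v b (i + 1) := hu
  have hux : (u : L) = 1 + x := by rw [hx]; ring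
  -- `τ x - x ∈ M_(i+2)`
  have h1 : ∀ τ : L ≃ₐ[k] L, τ x - x ∈ latM v b (i + 2) := by
    intro τ
    have h := hD τ
    have h' : τ (u : L) * (u : L)⁻¹ - 1 ∈ latM v b ((i + 1 : ℕ) + 1) := by
      have := (mem_latV hm).mp h
      simpa using this
    set ε := τ (u : L) * (u : L)⁻¹ - 1 with hε
    have e : τ x - x = ε + ε * x := by
      have hu0 : (u : L) ≠ 0 := u.ne_zero
      have : τ x = τ (u : L) - 1 := by rw [hx, map_sub, map_one]
      rw [this, hε, hx]
      field_simp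
      ring
    rw [e]
    have h'' : ε ∈ latM v b (i + 2) := by
      convert h' using 2; push_cast; ring
    refine add_mem h'' (latM_mono ?_ (latM_mul_mem hm h'' hxm))
    omega
  set c : k := b.repr x 1 with hc
  have hcv : v c ≤ exp (-((i : ℤ) + 1)) := hxm 1
  have h2 : ∀ g, v (b.repr x g - c) ≤ exp (-((i : ℤ) + 2)) := by
    intro g
    have := h1 g⁻¹ 1
    rw [map_sub, Finsupp.sub_apply, latM_repr_galois hn] at this
    simpa using this
  have hzm : c • b 1 ∈ latM v b (i + 1) := latM_smul_basis_mem hcv 1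
  set z : Lˣ := latUnit hm (by omega) hzm with hz
  have hzc : (z : L) = 1 + c • b 1 := rfl
  have hzV : z ∈ latV hm i := by
    show (z : L) - 1 ∈ latM v b (i + 1)
    rw [hzc, add_sub_cancel_left]; exact hzm
  refine ⟨z, hzV, ?_⟩
  have hNz : ((normU k L z : Lˣ) : L) = ∏ τ : L ≃ₐ[k] L, (1 + c • b τ) := by
    rw [normU_coe]
    refine Finset.prod_congr rfl fun τ _ => ?_
    rw [hzc, map_add, map_one, map_smul, hn, mul_one]
  have h3 := latM_prod_one_add hm (i := (i : ℤ) + 1) (by omega) Finset.univ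
    (fun τ : L ≃ₐ[k] L => c • b τ) (fun τ _ => latM_smul_basis_mem hcv τ)
  rw [← hNz] at h3
  -- `x - ∑ c • b τ ∈ M_(i+2)`
  have h4 : x - ∑ τ : L ≃ₐ[k] L, c • b τ ∈ latM v b (i + 2) := by
    have e4 : x - ∑ τ : L ≃ₐ[k] L, c • b τ = ∑ g : L ≃ₐ[k] L, (b.repr x g - c) • b g := by
      simp only [sub_smul, Finset.sum_sub_distrib, b.sum_repr x]
    rw [e4]
    exact AddSubgroup.sum_mem _ fun g _ => latM_smul_basis_mem (h2 g) g
  have hNV : normU k L z ∈ latV hm i := latV_normU_mem hm hn hzV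
  have hNV' : (normU k L z)⁻¹ ∈ latV hm i := inv_mem hNV
  have h5 : (((normU k L z)⁻¹ : Lˣ) : L) - 1 ∈ latM v b (i + 1) := hNV'
  set Nz : L := ((normU k L z : Lˣ) : L) with hNzdef
  set Ni : L := (((normU k L z)⁻¹ : Lˣ) : L) with hNidef
  have hNN : Nz * Ni = 1 := by rw [hNzdef, hNidef, ← Units.val_mul]; simp
  have h6 : (u : L) - Nz ∈ latM v b (i + 2) := by
    have e : (u : L) - Nz = (x - ∑ τ : L ≃ₐ[k] L, c • b τ)
        - (Nz - 1 - ∑ τ : L ≃ₐ[k] L, c • b τ) := by rw [hux]; ring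
    rw [e]
    refine sub_mem h4 (latM_mono ?_ h3)
    omega
  show ((u * (normU k L z)⁻¹ : Lˣ) : L) - 1 ∈ latM v b ((i + 1 : ℕ) + 1)
  have e : ((u * (normU k L z)⁻¹ : Lˣ) : L) - 1
      = ((u : L) - Nz) + ((u : L) - Nz) * (Ni - 1) := by
    have : ((u * (normU k L z)⁻¹ : Lˣ) : L) = (u : L) * Ni := Units.val_mul _ _
    rw [this]
    linear_combination hNN
  rw [e]
  have h7 : (u : L) - Nz ∈ latM v b ((i + 1 : ℕ) + 1) := by
    convert h6 using 2; push_cast; ring
  refine add_mem h7 (latM_mono ?_ (latM_mul_mem hm h7 h5))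
  omega

theorem map_normU (τ : L ≃ₐ[k] L) (z : Lˣ) :
    Units.map (τ : L →* L) (normU k L z) = normU k L z := by
  ext
  show τ (algebraMap k L (Algebra.norm k (z : L))) = algebraMap k L (Algebra.norm k (z : L))
  exact τ.commutes _

/-- (B2'): iterated approximation. -/
theorem latV_steps (hm : LatMul v b) (hn : LatNormal b) {j : ℕ} (c : ℕ) {u : Lˣ}
    (hu : u ∈ latV hm j)
    (hD : ∀ τ : L ≃ₐ[k] L, Units.map (τ : L →* L) u * u⁻¹ ∈ latV hm (j + c)) :
    ∃ z ∈ latV hm j, u * (normU k L z)⁻¹ ∈ latV hm (j + c) := by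
  induction c with
  | zero => exact ⟨1, one_mem _, by simpa using hu⟩
  | succ c ih =>
    obtain ⟨z, hz, hzu⟩ := ih (fun τ => latV_mono hm (by omega) (hD τ))
    have hD' : ∀ τ : L ≃ₐ[k] L, Units.map (τ : L →* L) (u * (normU k L z)⁻¹)
        * (u * (normU k L z)⁻¹)⁻¹ ∈ latV hm (j + c + 1) := by
      intro τ
      have e : Units.map (τ : L →* L) (u * (normU k L z)⁻¹) * (u * (normU k L z)⁻¹)⁻¹
          = Units.map (τ : L →* L) u * u⁻¹ := by
        rw [map_mul, map_inv, map_normU]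
        group
      rw [e]
      exact hD τ
    obtain ⟨z', hz', hzu'⟩ := latV_step hm hn hzu hD'
    refine ⟨z * z', mul_mem hz (latV_mono hm (by omega) hz'), ?_⟩
    have e : u * (normU k L (z * z'))⁻¹ = u * (normU k L z)⁻¹ * (normU k L z')⁻¹ := by
      rw [map_mul, mul_inv, mul_assoc]
    rw [e]
    exact hzu'

/-- (B3): the trace argument. -/
theorem latV_trace (hm : LatMul v b) {j c : ℕ}
    (hc : v ((Fintype.card (L ≃ₐ[k] L) : k)⁻¹) ≤ exp (c : ℤ))
    (hcard : (Fintype.card (L ≃ₐ[k] L) : k) ≠ 0) {a : Lˣ}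
    (hD : ∀ τ : L ≃ₐ[k] L, Units.map (τ : L →* L) a * a⁻¹ ∈ latV hm (j + c)) :
    ∃ x : kˣ, Units.map (algebraMap k L : k →* L) x * a⁻¹ ∈ latV hm j := by
  classical
  set n : k := (Fintype.card (L ≃ₐ[k] L) : k) with hn
  set ε : (L ≃ₐ[k] L) → L := fun τ => τ (a : L) * (a : L)⁻¹ - 1 with hε
  have hεm : ∀ τ, ε τ ∈ latM v b ((j : ℤ) + c + 1) := by
    intro τ
    have := (mem_latV hm).mp (hD τ)
    have h2 : ε τ ∈ latM v b ((j + c : ℕ) + 1) := by simpa [hε] using this
    convert h2 using 2; push_cast; ring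
  have hsum : ∑ τ, ε τ ∈ latM v b ((j : ℤ) + c + 1) := AddSubgroup.sum_mem _ fun τ _ => hεm τ
  set e : L := n⁻¹ • ∑ τ, ε τ with he
  have hem : e ∈ latM v b ((j : ℤ) + 1) := by
    have h1 : v n⁻¹ ≤ exp (-(-(c : ℤ))) := by rwa [neg_neg]
    have := latM_smul_mem (b := b) h1 hsum
    convert this using 2; ring
  have hne : 1 + e ≠ 0 := latM_one_add_ne_zero hm (by omega) hem
  have ha0 : (a : L) ≠ 0 := a.ne_zero
  set x : k := n⁻¹ * Algebra.trace k L (a : L) with hx
  have hxa : algebraMap k L x = (a : L) * (1 + e) := by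
    rw [hx, map_mul, trace_eq_sum_automorphisms, he, Algebra.smul_def]
    have h1 : ∑ τ : L ≃ₐ[k] L, τ (a : L) = (a : L) * (algebraMap k L n + ∑ τ, ε τ) := by
      rw [hε, Finset.sum_sub_distrib, Finset.sum_const, Finset.card_univ, nsmul_eq_mul, mul_one,
        hn, map_natCast, add_sub_cancel, Finset.mul_sum]
      refine Finset.sum_congr rfl fun τ _ => ?_
      field_simp
    rw [h1]
    have h2 : algebraMap k L n⁻¹ * algebraMap k L n = 1 := by
      rw [← map_mul, inv_mul_cancel₀ hcard, map_one]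
    linear_combination (a : L) * h2
  have hx0 : x ≠ 0 := by
    intro h0
    rw [h0, map_zero] at hxa
    exact (mul_ne_zero ha0 hne) hxa.symm
  refine ⟨Units.mk0 x hx0, ?_⟩
  show algebraMap k L x * ((a⁻¹ : Lˣ) : L) - 1 ∈ latM v b ((j : ℤ) + 1)
  have : algebraMap k L x * ((a⁻¹ : Lˣ) : L) - 1 = e := by
    rw [hxa, Units.val_inv_eq_inv_val]
    field_simp
    ring
  rw [this]
  exact hem

/-- `σ - 1` as an endomorphism of `Lˣ` -/
noncomputable def diffU (σ : L ≃ₐ[k] L) : Lˣ →* Lˣ where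
  toFun u := Units.map (σ : L →* L) u * u⁻¹
  map_one' := by simp
  map_mul' x y := by rw [map_mul, mul_inv]; exact mul_mul_mul_comm _ _ _ _

theorem diffU_apply (σ : L ≃ₐ[k] L) (u : Lˣ) : diffU σ u = Units.map (σ : L →* L) u * u⁻¹ := rfl

theorem normU_diffU (σ : L ≃ₐ[k] L) (u : Lˣ) : normU k L (diffU σ u) = 1 := by
  rw [diffU_apply, map_mul, map_inv, mul_inv_eq_one]
  ext
  rw [normU_coe', normU_coe']
  congr 1
  exact Algebra.norm_eq_of_algEquiv σ (u : L)

/-- from the generator to all of the group -/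
theorem diffU_all (σ : L ≃ₐ[k] L) (hσ : ∀ τ : L ≃ₐ[k] L, τ ∈ Subgroup.zpowers σ)
    (V : Subgroup Lˣ) (hV : ∀ u ∈ V, Units.map (σ : L →* L) u ∈ V) {a : Lˣ}
    (ha : diffU σ a ∈ V) (τ : L ≃ₐ[k] L) : Units.map (τ : L →* L) a * a⁻¹ ∈ V := by
  have hpow : ∀ l : ℕ, Units.map ((σ ^ l : L ≃ₐ[k] L) : L →* L) a * a⁻¹ ∈ V := by
    intro l
    induction l with
    | zero =>
      have : Units.map ((σ ^ 0 : L ≃ₐ[k] L) : L →* L) a = a := by ext; simp
      rw [this]; simp
    | succ l ih =>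
      have e : Units.map ((σ ^ (l + 1) : L ≃ₐ[k] L) : L →* L) a * a⁻¹
          = Units.map (σ : L →* L) (Units.map ((σ ^ l : L ≃ₐ[k] L) : L →* L) a * a⁻¹)
            * diffU σ a := by
        rw [diffU_apply, map_mul, map_inv]
        have : Units.map ((σ ^ (l + 1) : L ≃ₐ[k] L) : L →* L) a
            = Units.map (σ : L →* L) (Units.map ((σ ^ l : L ≃ₐ[k] L) : L →* L) a) := by
          ext
          show (σ ^ (l + 1)) (a : L) = σ ((σ ^ l) (a : L))
          rw [pow_succ']; rfl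
        rw [this]
        group
      rw [e]
      exact mul_mem (hV _ ih) ha
  have h1 : τ ∈ Submonoid.powers σ :=
    (isOfFinOrder_of_finite σ).mem_powers_iff_mem_zpowers.mpr (hσ τ)
  obtain ⟨l, rfl⟩ := h1
  exact hpow l

end gal

end Fermat.Agent.S55.H.LocNorm
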