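import Fermat.Agent.S55.H.LocNormGrp
import Fermat.Agent.S55.H.LocNormGal

/-!
# S55, block H, step (3): the norm of a cyclic extension is not locally surjective (abstract form)
-/

set_option autoImplicit false
set_option linter.unusedSectionVars false

namespace Fermat.Agent.S55.H.LocNorm

open WithZero

section aux

variable {k : Type*} [Field k] (v : Valuation k ℤᵐ⁰) {ϖ : k} (hϖ : v ϖ = exp (-1 : ℤ))

include hϖ in
theorem locnorm_v_pow (N : ℕ) : v (ϖ ^ N) = exp (-(N : ℤ)) := by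
  rw [map_pow, hϖ, ← exp_nsmul]; simp

include hϖ in
theorem locnorm_exists_pow_mul_le_one {κ : Type*} [Finite κ] (a : κ → k) :
    ∃ N : ℕ, ∀ i, v (ϖ ^ N * a i) ≤ 1 := by
  classical
  have := Fintype.ofFinite κ
  have h : ∀ i, ∃ c : ℕ, v (a i) ≤ exp (c : ℤ) := fun i =>
    ⟨(log (v (a i))).toNat, le_exp_of_log_le (Int.self_le_toNat _)⟩
  choose c hc using h
  refine ⟨∑ i, c i, fun i => ?_⟩
  rw [map_mul, locnorm_v_pow v hϖ]
  have h1 : (c i : ℤ) ≤ ((∑ i, c i : ℕ) : ℤ) := by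
    exact_mod_cast Finset.single_le_sum (f := c) (fun _ _ => Nat.zero_le _) (Finset.mem_univ i)
  calc exp (-((∑ i, c i : ℕ) : ℤ)) * v (a i) ≤ exp (-((∑ i, c i : ℕ) : ℤ)) * exp (c i : ℤ) :=
        mul_le_mul_right (hc i) _
    _ = exp (-((∑ i, c i : ℕ) : ℤ) + (c i : ℤ)) := (exp_add _ _).symm
    _ ≤ exp 0 := exp_le_exp.mpr (by omega)
    _ = 1 := exp_zero

include hϖ in
theorem locnorm_reps (F : Set k) (hF : F.Finite) (hres : ∀ x, v x ≤ 1 → ∃ r ∈ F, v (x - r) < 1)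
    (N : ℕ) : ∃ F' : Set k, F'.Finite ∧ ∀ x, v x ≤ 1 → ∃ r ∈ F', v (x - r) ≤ exp (-(N : ℤ)) := by
  have hϖ0 : ϖ ≠ 0 := by
    intro h; rw [h, map_zero] at hϖ; exact exp_ne_zero hϖ.symm
  induction N with
  | zero =>
    refine ⟨{0}, Set.finite_singleton _, fun x hx => ⟨0, rfl, ?_⟩⟩
    simpa using hx
  | succ N ih =>
    obtain ⟨F', hF', h'⟩ := ih
    refine ⟨Set.image2 (fun r r' => r + ϖ * r') F F', hF.image2 _ hF', fun x hx => ?_⟩
    obtain ⟨r, hr, hxr⟩ := hres x hx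
    have h1 : v ((x - r) / ϖ) ≤ 1 := by
      rw [map_div₀, hϖ, exp_neg, div_inv_eq_mul]
      have : v (x - r) ≤ exp (-1 : ℤ) := by
        by_cases h0 : v (x - r) = 0
        · rw [h0]; exact zero_le
        · rw [← log_le_iff_le_exp h0]
          have : log (v (x - r)) < 0 := by
            rw [log_lt_iff_lt_exp h0, exp_zero]; exact hxr
          omega
      calc v (x - r) * exp (1 : ℤ) ≤ exp (-1 : ℤ) * exp (1 : ℤ) := mul_le_mul_left this _
        _ = 1 := by rw [← exp_add]; simp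
    obtain ⟨r', hr', hxr'⟩ := h' _ h1
    refine ⟨r + ϖ * r', ⟨r, hr, r', hr', rfl⟩, ?_⟩
    have e : x - (r + ϖ * r') = ϖ * ((x - r) / ϖ - r') := by field_simp; ring
    rw [e, map_mul, hϖ]
    calc exp (-1 : ℤ) * v ((x - r) / ϖ - r') ≤ exp (-1 : ℤ) * exp (-(N : ℤ)) :=
          mul_le_mul_right hxr' _
      _ = exp (-((N + 1 : ℕ) : ℤ)) := by rw [← exp_add]; congr 1; push_cast; ring

include hϖ in
theorem locnorm_reps' (F : Set k) (hF : F.Finite) (hres : ∀ x, v x ≤ 1 → ∃ r ∈ F, v (x - r) < 1)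
    (c N : ℕ) : ∃ F' : Set k, F'.Finite ∧
      ∀ x, v x ≤ exp (c : ℤ) → ∃ r ∈ F', v (x - r) ≤ exp (-(N : ℤ)) := by
  have hϖ0 : ϖ ≠ 0 := by
    intro h; rw [h, map_zero] at hϖ; exact exp_ne_zero hϖ.symm
  obtain ⟨F', hF', h'⟩ := locnorm_reps v hϖ F hF hres (N + c)
  refine ⟨(fun r => r / ϖ ^ c) '' F', hF'.image _, fun x hx => ?_⟩
  have h1 : v (ϖ ^ c * x) ≤ 1 := by
    rw [map_mul, locnorm_v_pow v hϖ]
    calc exp (-(c : ℤ)) * v x ≤ exp (-(c : ℤ)) * exp (c : ℤ) := mul_le_mul_right hx _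
      _ = 1 := by rw [← exp_add]; simp
  obtain ⟨r, hr, hxr⟩ := h' _ h1
  refine ⟨r / ϖ ^ c, ⟨r, hr, rfl⟩, ?_⟩
  have e : x - r / ϖ ^ c = (ϖ ^ c * x - r) / ϖ ^ c := by field_simp
  rw [e, map_div₀, locnorm_v_pow v hϖ, exp_neg, div_inv_eq_mul]
  calc v (ϖ ^ c * x - r) * exp (c : ℤ) ≤ exp (-((N + c : ℕ) : ℤ)) * exp (c : ℤ) :=
        mul_le_mul_left hxr _
    _ = exp (-(N : ℤ)) := by rw [← exp_add]; congr 1; push_cast; ring

end aux

theorem locnorm_finiteIndex_of_map {U : Type*} [Group U] (V' : Subgroup U) {X : Type*} [Finite X]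
    (ρ : U → X) (h : ∀ u u', ρ u = ρ u' → u'⁻¹ * u ∈ V') : V'.FiniteIndex := by
  have hs : Function.Surjective
      (fun x : Set.range ρ => (QuotientGroup.mk (Classical.choose x.2) : U ⧸ V')) := by
    intro q
    obtain ⟨u, rfl⟩ := QuotientGroup.mk_surjective q
    refine ⟨⟨ρ u, u, rfl⟩, ?_⟩
    show (QuotientGroup.mk _ : U ⧸ V') = QuotientGroup.mk u
    rw [QuotientGroup.eq]
    apply h
    exact (Classical.choose_spec (⟨u, rfl⟩ : ∃ u', ρ u' = ρ u)).symm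
  have : Finite (U ⧸ V') := Finite.of_surjective _ hs
  exact Subgroup.finiteIndex_of_finite_quotient

section wpart

variable {k L : Type*} [Field k] [Field L] [Algebra k L] [FiniteDimensional k L] [IsGalois k L]
variable {v : Valuation k ℤᵐ⁰} {b : Module.Basis (L ≃ₐ[k] L) k L}
variable {Γ : Type*} [LinearOrderedCommGroupWithZero Γ] {w : Valuation L Γ}

theorem locnorm_w_pow (hw : ∀ (τ : L ≃ₐ[k] L) y, w (τ y) = w y) (y : L) :
    w y ^ Fintype.card (L ≃ₐ[k] L) = w (algebraMap k L (Algebra.norm k y)) := by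
  rw [Algebra.norm_eq_prod_automorphisms, map_prod]
  simp only [hw, Finset.prod_const, Finset.card_univ]

theorem locnorm_w_le_one_iff (hw : ∀ (τ : L ≃ₐ[k] L) y, w (τ y) = w y)
    (hwv : ∀ x : k, w (algebraMap k L x) ≤ 1 ↔ v x ≤ 1) (y : L) :
    w y ≤ 1 ↔ v (Algebra.norm k y) ≤ 1 := by
  rw [← hwv, ← locnorm_w_pow hw]
  exact (pow_le_one_iff Fintype.card_ne_zero).symm

theorem locnorm_v_trace_le_one (hw : ∀ (τ : L ≃ₐ[k] L) y, w (τ y) = w y)
    (hwv : ∀ x : k, w (algebraMap k L x) ≤ 1 ↔ v x ≤ 1) {y : L} (hy : w y ≤ 1) :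
    v (Algebra.trace k L y) ≤ 1 := by
  rw [← hwv, trace_eq_sum_automorphisms]
  exact w.map_sum_le fun τ _ => by rw [hw]; exact hy

/-- (R2) -/
theorem locnorm_integers_le {ϖ : k} (hϖ : v ϖ = exp (-1 : ℤ))
    (hw : ∀ (τ : L ≃ₐ[k] L) y, w (τ y) = w y)
    (hwv : ∀ x : k, w (algebraMap k L x) ≤ 1 ↔ v x ≤ 1) :
    ∃ c : ℕ, ∀ y : L, w y ≤ 1 → y ∈ latM v b (-(c : ℤ)) := by
  classical
  set B := Algebra.traceForm k L with hB
  have hnd : B.Nondegenerate := traceForm_nondegenerate k L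
  set d := B.dualBasis hnd b with hd
  have hrepr : ∀ (y : L) g, b.repr y g = Algebra.trace k L (y * d g) := by
    intro y g
    have h1 : B.dualBasis hnd d = b :=
      LinearMap.BilinForm.dualBasis_dualBasis hnd (Algebra.traceForm_isSymm k) b
    have h2 := LinearMap.BilinForm.dualBasis_repr_apply hnd d y g
    rw [h1] at h2
    rw [h2]; rfl
  obtain ⟨N, hN⟩ := locnorm_exists_pow_mul_le_one v hϖ (fun g => Algebra.norm k (d g))
  refine ⟨N, fun y hy g => ?_⟩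
  have hϖ1 : v ϖ ≤ 1 := by rw [hϖ, ← exp_zero]; exact exp_le_exp.mpr (by omega)
  have h1 : w (algebraMap k L (ϖ ^ N) * d g) ≤ 1 := by
    rw [locnorm_w_le_one_iff hw hwv, map_mul, Algebra.norm_algebraMap, map_mul]
    have hfr : 0 < Module.finrank k L := Module.finrank_pos
    obtain ⟨n, hn⟩ : ∃ n, Module.finrank k L = n + 1 := ⟨_, (Nat.succ_pred_eq_of_pos hfr).symm⟩
    rw [hn, pow_succ, map_mul, mul_assoc, ← map_mul v (ϖ ^ N)]
    have h2 : v ((ϖ ^ N) ^ n) ≤ 1 := by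
      rw [map_pow, map_pow]; exact pow_le_one' (pow_le_one' hϖ1 _) _
    exact mul_le_one' h2 (hN g)
  have h2 : v (Algebra.trace k L (y * (algebraMap k L (ϖ ^ N) * d g))) ≤ 1 :=
    locnorm_v_trace_le_one hw hwv (by rw [map_mul]; exact mul_le_one' hy h1)
  have e : Algebra.trace k L (y * (algebraMap k L (ϖ ^ N) * d g)) = ϖ ^ N * b.repr y g := by
    rw [hrepr, ← smul_eq_mul (a := ϖ ^ N), ← map_smul, Algebra.smul_def]
    congr 1; ring
  rw [e, map_mul, locnorm_v_pow v hϖ] at h2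
  rw [neg_neg]
  calc v (b.repr y g) = exp (N : ℤ) * (exp (-(N : ℤ)) * v (b.repr y g)) := by
        rw [← mul_assoc, ← exp_add]; simp
    _ ≤ exp (N : ℤ) * 1 := mul_le_mul_right h2 _
    _ = exp (N : ℤ) := mul_one _

/-- (R3): finite index -/
theorem locnorm_finiteIndex (hm : LatMul v b) {ϖ : k} (hϖ : v ϖ = exp (-1 : ℤ))
    (F : Set k) (hF : F.Finite) (hres : ∀ x, v x ≤ 1 → ∃ r ∈ F, v (x - r) < 1)
    (hw : ∀ (τ : L ≃ₐ[k] L) y, w (τ y) = w y)
    (hwv : ∀ x : k, w (algebraMap k L x) ≤ 1 ↔ v x ≤ 1)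
    (U : Subgroup Lˣ) (hU : ∀ u ∈ U, w (u : L) ≤ 1) (j : ℕ) :
    ((latV hm j).subgroupOf U).FiniteIndex := by
  classical
  obtain ⟨c, hc⟩ := locnorm_integers_le (b := b) hϖ hw hwv
  obtain ⟨F', hF', h'⟩ := locnorm_reps' v hϖ F hF hres c (j + 1 + c)
  have hch : ∀ (u : U) (g : L ≃ₐ[k] L), ∃ r : F',
      v (b.repr ((u : Lˣ) : L) g - r) ≤ exp (-((j + 1 + c : ℕ) : ℤ)) := by
    intro u g
    have h1 := hc _ (hU u u.2) g
    rw [neg_neg] at h1
    obtain ⟨r, hr, h2⟩ := h' _ h1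
    exact ⟨⟨r, hr⟩, h2⟩
  choose ρ hρ using hch
  have : Finite F' := hF'
  refine locnorm_finiteIndex_of_map _ ρ fun u u' huu' => ?_
  show (((u'⁻¹ * u : U) : Lˣ) : L) - 1 ∈ latM v b (j + 1)
  have h1 : ((u : Lˣ) : L) - ((u' : Lˣ) : L) ∈ latM v b ((j + 1 + c : ℕ) : ℤ) := by
    intro g
    rw [map_sub, Finsupp.sub_apply]
    have e : b.repr ((u : Lˣ) : L) g - b.repr ((u' : Lˣ) : L) g
        = (b.repr ((u : Lˣ) : L) g - ρ u g) - (b.repr ((u' : Lˣ) : L) g - ρ u' g) := by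
      rw [huu']; ring
    rw [e]
    exact v.map_sub_le (hρ u g) (hρ u' g)
  have h2 : (((u'⁻¹ : U) : Lˣ) : L) ∈ latM v b (-(c : ℤ)) := hc _ (hU _ (u'⁻¹).2)
  have h3 := latM_mul_mem hm h1 h2
  have e : (((u'⁻¹ * u : U) : Lˣ) : L) - 1
      = (((u : Lˣ) : L) - ((u' : Lˣ) : L)) * (((u'⁻¹ : U) : Lˣ) : L) := by
    have : ((u' : Lˣ) : L) * (((u'⁻¹ : U) : Lˣ) : L) = 1 := by
      rw [← Units.val_mul, ← Subgroup.coe_mul]; simp
    push_cast
    push_cast at this
    linear_combination this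
  rw [e]
  convert h3 using 2
  push_cast; ring

theorem locnorm_one_not_mem (hm : LatMul v b) : (1 : L) ∉ latM v b 1 := by
  intro h
  have : (1 : L) = 0 := by
    apply latM_eq_zero (v := v) (b := b)
    intro N
    have h2 := latM_pow_mem hm h N
    rw [one_pow] at h2
    refine latM_mono ?_ h2
    push_cast; omega
  exact one_ne_zero this

theorem locnorm_of_algebraMap_mem (hm : LatMul v b) {i : ℤ} {β : k}
    (h : algebraMap k L β ∈ latM v b i) : v β ≤ exp (-i) := by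
  have h1 := locnorm_one_not_mem hm
  rw [mem_latM] at h1
  push Not at h1
  obtain ⟨g, hg⟩ := h1
  have hg0 : v (b.repr (1 : L) g) ≠ 0 := (exp_pos.trans hg).ne'
  have hg1 : 1 ≤ v (b.repr (1 : L) g) := by
    rw [← exp_zero, ← le_log_iff_exp_le hg0]
    have := (lt_log_iff_exp_lt hg0).mpr hg
    omega
  have h2 := h g
  rw [Algebra.algebraMap_eq_smul_one, map_smul, Finsupp.smul_apply, smul_eq_mul, map_mul] at h2
  calc v β = v β * 1 := (mul_one _).symm
    _ ≤ v β * v (b.repr (1 : L) g) := mul_le_mul_right hg1 _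
    _ ≤ exp (-i) := h2

variable (L) in
theorem locnorm_exists_basis {ϖ : k} (hϖ : v ϖ = exp (-1 : ℤ)) :
    ∃ b : Module.Basis (L ≃ₐ[k] L) k L, LatNormal b ∧ LatMul v b := by
  classical
  have hϖ0 : ϖ ≠ 0 := by
    intro h; rw [h, map_zero] at hϖ; exact exp_ne_zero hϖ.symm
  set b₀ := IsGalois.normalBasis k L with hb₀
  have hn₀ : ∀ g h : L ≃ₐ[k] L, g (b₀ h) = b₀ (g * h) := by
    intro g h
    rw [IsGalois.normalBasis_apply h, IsGalois.normalBasis_apply (g * h)]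
    rfl
  obtain ⟨N, hN⟩ := locnorm_exists_pow_mul_le_one v hϖ
    (fun x : (L ≃ₐ[k] L) × (L ≃ₐ[k] L) × (L ≃ₐ[k] L) => b₀.repr (b₀ x.1 * b₀ x.2.1) x.2.2)
  have hs : ϖ ^ N ≠ 0 := pow_ne_zero _ hϖ0
  set b := b₀.unitsSMul (fun _ => Units.mk0 (ϖ ^ N) hs) with hb
  have hbapp : ∀ g, b g = (ϖ ^ N) • b₀ g := by
    intro g
    rw [hb, Module.Basis.unitsSMul_apply]
    rfl
  refine ⟨b, ?_, ?_⟩
  · intro g h
    rw [hbapp, hbapp, map_smul, hn₀]
  · intro g h t
    have e : b.repr (b g * b h) t = ϖ ^ N * b₀.repr (b₀ g * b₀ h) t := by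
      rw [hbapp, hbapp, hb, Module.Basis.repr_unitsSMul, smul_mul_smul_comm, map_smul,
        Finsupp.smul_apply, Units.smul_def, smul_eq_mul, smul_eq_mul, Units.val_inv_eq_inv_val,
        Units.val_mk0]
      field_simp
    rw [e]
    simpa using hN (g, h, t)

/-- the valuation of the norm, as a homomorphism to `ℤ` -/
noncomputable def omegaU (v : Valuation k ℤᵐ⁰) (L : Type*) [Field L] [Algebra k L] :
    Lˣ →* Multiplicative ℤ where
  toFun u := Multiplicative.ofAdd (log (v (Algebra.norm k (u : L))))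
  map_one' := by simp
  map_mul' x y := by
    have hx : v (Algebra.norm k (x : L)) ≠ 0 :=
      (Valuation.ne_zero_iff v).mpr (Units.map (Algebra.norm k : L →* k) x).ne_zero
    have hy : v (Algebra.norm k (y : L)) ≠ 0 :=
      (Valuation.ne_zero_iff v).mpr (Units.map (Algebra.norm k : L →* k) y).ne_zero
    rw [Units.val_mul, map_mul, map_mul, log_mul hx hy]
    rfl

theorem omegaU_apply (u : Lˣ) :
    omegaU v L u = Multiplicative.ofAdd (log (v (Algebra.norm k (u : L)))) := rfl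

theorem omegaU_eq_one_iff (u : Lˣ) : omegaU v L u = 1 ↔ v (Algebra.norm k (u : L)) = 1 := by
  have hx : v (Algebra.norm k (u : L)) ≠ 0 :=
    (Valuation.ne_zero_iff v).mpr (Units.map (Algebra.norm k : L →* k) u).ne_zero
  rw [omegaU_apply]
  constructor
  · intro h
    have h1 : log (v (Algebra.norm k (u : L))) = 0 := Multiplicative.ofAdd.injective h
    rw [← exp_log hx, h1, exp_zero]
  · intro h
    rw [h, log_one]; rfl

/-- **The norm of a cyclic extension is not locally surjective** (abstract congruence form). -/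
theorem locnorm_abs (hchar : (Fintype.card (L ≃ₐ[k] L) : k) ≠ 0)
    (σ : L ≃ₐ[k] L) (hσ : ∀ τ : L ≃ₐ[k] L, τ ∈ Subgroup.zpowers σ)
    (hdeg : 2 ≤ Module.finrank k L)
    {ϖ : k} (hϖ : v ϖ = exp (-1 : ℤ))
    (F : Set k) (hF : F.Finite) (hres : ∀ x, v x ≤ 1 → ∃ r ∈ F, v (x - r) < 1)
    (hw : ∀ (τ : L ≃ₐ[k] L) y, w (τ y) = w y)
    (hwv : ∀ x : k, w (algebraMap k L x) ≤ 1 ↔ v x ≤ 1) :
    ∃ m : ℕ, ∃ x : k, x ≠ 0 ∧
      ∀ y : L, y ≠ 0 → ¬ v (x / Algebra.norm k y - 1) ≤ exp (-(m : ℤ)) := by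
  classical
  have hϖ0 : ϖ ≠ 0 := by
    intro h; rw [h, map_zero] at hϖ; exact exp_ne_zero hϖ.symm
  obtain ⟨b, hn, hm⟩ := locnorm_exists_basis (v := v) L hϖ
  set n := Module.finrank k L with hndef
  -- the constant `c`
  obtain ⟨c, hc⟩ : ∃ c : ℕ, v ((Fintype.card (L ≃ₐ[k] L) : k)⁻¹) ≤ exp (c : ℤ) :=
    ⟨(log (v ((Fintype.card (L ≃ₐ[k] L) : k)⁻¹))).toNat, le_exp_of_log_le (Int.self_le_toNat _)⟩
  obtain ⟨c₁, hc₁⟩ := latM_exists_mem (v := v) (b := b) (1 : L)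
  set V := latV hm (0 + c) with hV
  have hVω : V ≤ (omegaU v L).ker := by
    intro u hu
    rw [MonoidHom.mem_ker, omegaU_eq_one_iff]
    have h1 : normU k L u ∈ latV hm (0 + c) := latV_normU_mem hm hn hu
    have h2 : algebraMap k L (Algebra.norm k (u : L) - 1) ∈ latM v b ((0 + c : ℕ) + 1) := by
      rw [map_sub, map_one]; exact h1
    have h3 := locnorm_of_algebraMap_mem hm h2
    have h4 : v (Algebra.norm k (u : L) - 1) < 1 := by
      refine h3.trans_lt ?_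
      rw [← exp_zero]; exact exp_lt_exp.mpr (by omega)
    have := Valuation.map_one_add_of_lt v h4
    rwa [add_sub_cancel] at this
  have hUw : ∀ u ∈ (omegaU v L).ker, w (u : L) ≤ 1 := by
    intro u hu
    rw [MonoidHom.mem_ker, omegaU_eq_one_iff] at hu
    rw [locnorm_w_le_one_iff hw hwv, hu]
  have hfin : (V.subgroupOf (omegaU v L).ker).FiniteIndex :=
    locnorm_finiteIndex hm hϖ F hF hres hw hwv _ hUw _
  have hωN : ∀ a, omegaU v L (normU k L a) = omegaU v L a ^ n := by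
    intro a
    rw [omegaU_apply, omegaU_apply, normU_coe', Algebra.norm_algebraMap, map_pow, log_pow]
    rfl
  have hωD : ∀ a, omegaU v L (diffU σ a) = 1 := by
    intro a
    rw [omegaU_eq_one_iff]
    have h1 := normU_diffU σ a
    have h2 : algebraMap k L (Algebra.norm k ((diffU σ a : Lˣ) : L)) = 1 := by
      rw [← normU_coe', h1]; rfl
    have h3 : Algebra.norm k ((diffU σ a : Lˣ) : L) = 1 :=
      (algebraMap k L).injective (by rw [h2, map_one])
    rw [h3, map_one]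
  set ϖL : Lˣ := Units.map (algebraMap k L : k →* L) (Units.mk0 ϖ hϖ0) with hϖL
  have hDϖ : diffU σ ϖL ∈ V := by
    have : diffU σ ϖL = 1 := by
      rw [diffU_apply, mul_inv_eq_one]
      ext
      show σ (algebraMap k L ϖ) = algebraMap k L ϖ
      exact σ.commutes _
    rw [this]; exact one_mem _
  have hωϖ : omegaU v L ϖL = Multiplicative.ofAdd (-(n : ℤ)) := by
    rw [omegaU_apply]
    have : ((ϖL : Lˣ) : L) = algebraMap k L ϖ := rfl
    rw [this, Algebra.norm_algebraMap, map_pow, hϖ, log_pow, log_exp, ← hndef]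
    simp
  obtain ⟨a, haD, haN⟩ := locnorm_exists_not_norm (diffU σ) (normU k L) (normU_diffU σ)
    (omegaU v L) n hdeg hωN hωD V hVω
    (fun u hu => mul_mem (latV_galois_mem hm hn σ hu) (inv_mem hu))
    (fun u hu => latV_normU_mem hm hn hu) hfin ϖL hDϖ hωϖ
  have hall : ∀ τ : L ≃ₐ[k] L, Units.map (τ : L →* L) a * a⁻¹ ∈ latV hm (0 + c) :=
    diffU_all σ hσ V (fun u hu => latV_galois_mem hm hn σ hu) haD
  obtain ⟨x, hx⟩ := latV_trace hm hc hchar hall
  refine ⟨1 + c₁, (x : k), x.ne_zero, fun y hy hcon => ?_⟩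
  set yU : Lˣ := Units.mk0 y hy with hyU
  set xL : Lˣ := Units.map (algebraMap k L : k →* L) x with hxL
  have hNy0 : Algebra.norm k y ≠ 0 := Algebra.norm_ne_zero_iff.mpr hy
  have ht : xL * (normU k L yU)⁻¹ ∈ latV hm 0 := by
    show ((xL * (normU k L yU)⁻¹ : Lˣ) : L) - 1 ∈ latM v b ((0 : ℕ) + 1)
    have e : ((xL * (normU k L yU)⁻¹ : Lˣ) : L) - 1
        = ((x : k) / Algebra.norm k y - 1) • (1 : L) := by
      rw [Units.val_mul, Units.val_inv_eq_inv_val, normU_coe', ← Algebra.algebraMap_eq_smul_one,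
        map_sub, map_div₀, map_one, div_eq_mul_inv]
      rfl
    rw [e]
    have := latM_smul_mem (b := b) hcon hc₁
    convert this using 2
    push_cast; ring
  set u : Lˣ := a * (normU k L yU)⁻¹ with hu
  have huV : u ∈ latV hm 0 := by
    have e : u = (xL * a⁻¹)⁻¹ * (xL * (normU k L yU)⁻¹) := by rw [hu]; group
    rw [e]
    exact mul_mem (inv_mem hx) ht
  have huD : ∀ τ : L ≃ₐ[k] L, Units.map (τ : L →* L) u * u⁻¹ ∈ latV hm (0 + c) := by
    intro τ
    have e : Units.map (τ : L →* L) u * u⁻¹ = Units.map (τ : L →* L) a * a⁻¹ := by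
      rw [hu, map_mul, map_inv, map_normU]
      group
    rw [e]; exact hall τ
  obtain ⟨z, -, hz⟩ := latV_steps hm hn c huV huD
  refine haN (yU * z) (u * (normU k L z)⁻¹) hz ?_
  rw [hu, map_mul]
  generalize normU k L yU = P
  generalize normU k L z = Q
  rw [mul_comm a P⁻¹, mul_assoc P⁻¹, ← mul_assoc (P * Q), mul_comm P Q, mul_assoc Q P,
    mul_inv_cancel, mul_one, mul_comm a, ← mul_assoc, mul_inv_cancel, one_mul]

end wpart

end Fermat.Agent.S55.H.LocNorm
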