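import Mathlib

/-!
# S55, block H, step (3): the group theoretic core of "the norm is not locally surjective"

`A` is a commutative group with two endomorphisms `D` ("`σ - 1`") and `N` ("norm"), `N ∘ D = 1`,
and a "valuation" `ω : A →* Multiplicative ℤ` with `ω ∘ N = ω ^ n`, `ω ∘ D = 1`.
If `V ≤ ker ω` is stable under `D`, `N` and of finite index in `ker ω`, and there is `ϖ` with
`D ϖ ∈ V`, `ω ϖ = n`, `n ≥ 2`, then some `a` with `D a ∈ V` is not in `N(A) V`.
-/

set_option autoImplicit false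

namespace Fermat.Agent.S55.H.LocNorm

section grp

variable {A : Type*} [CommGroup A]

/-- counting in a finite commutative group: if `ker D ≤ im N` and `im D ≤ ker N`, then
`ker N ≤ im D`. -/
theorem locnorm_ker_le_range {B : Type*} [CommGroup B] [Finite B] (D N : B →* B)
    (h1 : D.ker ≤ N.range) (h2 : D.range ≤ N.ker) : N.ker ≤ D.range := by
  have eD : Nat.card D.ker * Nat.card D.range = Nat.card B := by
    rw [← Subgroup.index_ker D]; exact Subgroup.card_mul_index _
  have eN : Nat.card N.ker * Nat.card N.range = Nat.card B := by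
    rw [← Subgroup.index_ker N]; exact Subgroup.card_mul_index _
  have c1 : Nat.card D.ker ≤ Nat.card N.range := Subgroup.card_le_of_le h1
  have pos1 : 0 < Nat.card D.ker := Nat.card_pos
  have pos2 : 0 < Nat.card N.range := Nat.card_pos
  have c2 : Nat.card N.ker ≤ Nat.card D.range := by
    by_contra hlt
    push Not at hlt
    have : Nat.card D.ker * Nat.card D.range < Nat.card N.ker * Nat.card N.range := by
      calc Nat.card D.ker * Nat.card D.range ≤ Nat.card N.range * Nat.card D.range :=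
            Nat.mul_le_mul_right _ c1
        _ < Nat.card N.range * Nat.card N.ker := Nat.mul_lt_mul_of_pos_left hlt pos2
        _ = Nat.card N.ker * Nat.card N.range := Nat.mul_comm _ _
    omega
  exact (Subgroup.eq_of_le_of_card_ge h2 c2).ge

theorem locnorm_exists_not_norm (D N : A →* A) (hND : ∀ a, N (D a) = 1)
    (ω : A →* Multiplicative ℤ) (n : ℕ) (hn : 2 ≤ n)
    (hωN : ∀ a, ω (N a) = ω a ^ n) (hωD : ∀ a, ω (D a) = 1)
    (V : Subgroup A) (hVω : V ≤ ω.ker) (hDV : ∀ a ∈ V, D a ∈ V) (hNV : ∀ a ∈ V, N a ∈ V)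
    (hfin : (V.subgroupOf ω.ker).FiniteIndex)
    (ϖ : A) (hDϖ : D ϖ ∈ V) (hωϖ : ω ϖ = Multiplicative.ofAdd (-(n : ℤ))) :
    ∃ a, D a ∈ V ∧ ∀ y, ∀ v ∈ V, a ≠ N y * v := by
  by_contra hcon
  push Not at hcon
  -- `hcon : ∀ a, D a ∈ V → ∃ y, ∃ v ∈ V, a = N y * v`
  set U : Subgroup A := ω.ker with hU
  have hωV : ∀ v ∈ V, ω v = 1 := fun v hv => MonoidHom.mem_ker.mp (hVω hv)
  have hpow : ∀ t : Multiplicative ℤ, t ^ n = 1 → t = 1 := by
    intro t ht
    have h1 : (n : ℤ) * Multiplicative.toAdd t = 0 := by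
      have := congrArg Multiplicative.toAdd ht
      simpa [toAdd_pow] using this
    have h2 : Multiplicative.toAdd t = 0 := by
      rcases mul_eq_zero.mp h1 with h | h
      · omega
      · exact h
    exact Multiplicative.toAdd.injective h2
  let DU : U →* U := (D.comp U.subtype).codRestrict U (fun u => MonoidHom.mem_ker.mpr (hωD _))
  let NU : U →* U := (N.comp U.subtype).codRestrict U (fun u => MonoidHom.mem_ker.mpr (by
    show ω (N (u : A)) = 1
    rw [hωN, MonoidHom.mem_ker.mp u.2, one_pow]))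
  set V' : Subgroup U := V.subgroupOf U with hV'
  let DB : U ⧸ V' →* U ⧸ V' := QuotientGroup.map V' V' DU (by
    intro u hu
    exact hDV _ hu)
  let NB : U ⧸ V' →* U ⧸ V' := QuotientGroup.map V' V' NU (by
    intro u hu
    exact hNV _ hu)
  have : Finite (U ⧸ V') := Subgroup.finite_quotient_of_finiteIndex
  have h1 : DB.ker ≤ NB.range := by
    intro b hb
    obtain ⟨u, rfl⟩ := QuotientGroup.mk_surjective b
    have hb' : DU u ∈ V' := by
      have : (QuotientGroup.mk (DU u) : U ⧸ V') = 1 := hb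
      rwa [QuotientGroup.eq_one_iff] at this
    have hb'' : D (u : A) ∈ V := hb'
    obtain ⟨y, v, hv, hyv⟩ := hcon _ hb''
    have hy : ω y = 1 := by
      apply hpow
      have : ω (u : A) = ω y ^ n * ω v := by rw [hyv, map_mul, hωN]
      rw [MonoidHom.mem_ker.mp u.2, hωV v hv, mul_one] at this
      exact this.symm
    refine ⟨QuotientGroup.mk ⟨y, MonoidHom.mem_ker.mpr hy⟩, ?_⟩
    show QuotientGroup.mk (NU ⟨y, _⟩) = QuotientGroup.mk u
    rw [QuotientGroup.eq]
    show ((NU ⟨y, _⟩)⁻¹ * u : U).1 ∈ V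
    have : (((NU ⟨y, MonoidHom.mem_ker.mpr hy⟩)⁻¹ * u : U) : A) = v := by
      show (N y)⁻¹ * (u : A) = v
      rw [hyv]; group
    rw [this]; exact hv
  have h2 : DB.range ≤ NB.ker := by
    rintro _ ⟨b, rfl⟩
    obtain ⟨u, rfl⟩ := QuotientGroup.mk_surjective b
    show NB (DB (QuotientGroup.mk u)) = 1
    show QuotientGroup.mk (NU (DU u)) = 1
    have : NU (DU u) = 1 := Subtype.ext (hND _)
    rw [this]; rfl
  have h3 := locnorm_ker_le_range DB NB h1 h2
  -- use `ϖ`
  obtain ⟨y, v, hv, hyv⟩ := hcon ϖ hDϖ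
  have hωy : ω y = Multiplicative.ofAdd (-1 : ℤ) := by
    have e : ω ϖ = ω y ^ n := by rw [hyv, map_mul, hωN, hωV v hv, mul_one]
    rw [hωϖ] at e
    have e' : -(n : ℤ) = (n : ℤ) * Multiplicative.toAdd (ω y) := by
      have := congrArg Multiplicative.toAdd e
      simpa [toAdd_pow] using this
    have : Multiplicative.toAdd (ω y) = -1 := by
      have hn0 : (n : ℤ) ≠ 0 := by omega
      have : (n : ℤ) * (Multiplicative.toAdd (ω y) + 1) = 0 := by linarith
      rcases mul_eq_zero.mp this with h | h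
      · exact absurd h hn0
      · linarith
    exact Multiplicative.toAdd.injective this
  -- `D y ∈ U`, its class is in `ker NB = range DB`
  let δ : U := ⟨D y, MonoidHom.mem_ker.mpr (hωD y)⟩
  have hδ : (QuotientGroup.mk δ : U ⧸ V') ∈ NB.ker := by
    show QuotientGroup.mk (NU δ) = 1
    have : NU δ = 1 := Subtype.ext (hND _)
    rw [this]; rfl
  obtain ⟨b, hb⟩ := h3 hδ
  obtain ⟨u, rfl⟩ := QuotientGroup.mk_surjective b
  have hb' : (DU u)⁻¹ * δ ∈ V' := by
    have : (QuotientGroup.mk (DU u) : U ⧸ V') = QuotientGroup.mk δ := hb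
    rwa [QuotientGroup.eq] at this
  have hb'' : (D (u : A))⁻¹ * D y ∈ V := hb'
  have hy' : D (y * (u : A)⁻¹) ∈ V := by
    have : D (y * (u : A)⁻¹) = (D (u : A))⁻¹ * D y := by
      rw [map_mul, map_inv, mul_comm]
    rw [this]; exact hb''
  obtain ⟨z, v', hv', hz⟩ := hcon _ hy'
  have e : ω y = ω z ^ n := by
    have : ω (y * (u : A)⁻¹) = ω z ^ n := by rw [hz, map_mul, hωN, hωV v' hv', mul_one]
    rwa [map_mul, map_inv, MonoidHom.mem_ker.mp u.2, inv_one, mul_one] at this
  rw [hωy] at e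
  have e' : (-1 : ℤ) = (n : ℤ) * Multiplicative.toAdd (ω z) := by
    have := congrArg Multiplicative.toAdd e
    simpa [toAdd_pow] using this
  have hdvd : (n : ℤ) ∣ -1 := ⟨_, e'⟩
  have : (n : ℤ) ∣ 1 := (dvd_neg).mp hdvd
  have := Int.le_of_dvd one_pos this
  omega

end grp

end Fermat.Agent.S55.H.LocNorm
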