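import Mathlib

/-!
# S55, block H, step (3): the normal basis lattice

`k ⊂ L` finite Galois, `v` a `ℤᵐ⁰`-valued valuation of `k`, `b` a normal basis of `L/k` whose
structure constants are `v`-integral.  `latM v b j = {y | all coordinates have v ≤ exp (-j)}`.
-/

set_option autoImplicit false
set_option linter.unusedSectionVars false

namespace Fermat.Agent.S55.H.LocNorm

open WithZero

section lat

variable {k L : Type*} [Field k] [Field L] [Algebra k L]
variable {ι : Type*} [Finite ι]
variable (v : Valuation k ℤᵐ⁰) (b : Module.Basis ι k L)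

/-- the lattice `M_j` -/
def latM (j : ℤ) : AddSubgroup L where
  carrier := {y | ∀ g, v (b.repr y g) ≤ exp (-j)}
  zero_mem' := by intro g; simp
  add_mem' := by
    intro x y hx hy g
    rw [map_add, Finsupp.add_apply]
    exact v.map_add_le (hx g) (hy g)
  neg_mem' := by
    intro x hx g
    rw [map_neg, Finsupp.neg_apply, Valuation.map_neg]
    exact hx g

variable {v b}

theorem mem_latM {j : ℤ} {y : L} : y ∈ latM v b j ↔ ∀ g, v (b.repr y g) ≤ exp (-j) := Iff.rfl

theorem latM_mono {i j : ℤ} (h : i ≤ j) : latM v b j ≤ latM v b i := by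
  intro y hy g
  exact (hy g).trans (exp_le_exp.mpr (by omega))

theorem latM_smul_mem {i j : ℤ} {c : k} {y : L} (hc : v c ≤ exp (-i)) (hy : y ∈ latM v b j) :
    c • y ∈ latM v b (i + j) := by
  intro g
  rw [map_smul, Finsupp.smul_apply, smul_eq_mul, map_mul, neg_add, exp_add]
  exact mul_le_mul' hc (hy g)

theorem latM_basis_mem (g : ι) : b g ∈ latM v b 0 := by
  classical
  intro h
  rw [Module.Basis.repr_self, Finsupp.single_apply]
  split_ifs <;> simp

theorem latM_smul_basis_mem {i : ℤ} {c : k} (hc : v c ≤ exp (-i)) (g : ι) :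
    c • b g ∈ latM v b i := by
  have := latM_smul_mem (b := b) hc (latM_basis_mem (v := v) (b := b) g)
  rwa [add_zero] at this

theorem latM_exists_mem (y : L) : ∃ c : ℕ, y ∈ latM v b (-(c : ℤ)) := by
  classical
  have := Fintype.ofFinite ι
  have h : ∀ g, ∃ c : ℕ, v (b.repr y g) ≤ exp (c : ℤ) := by
    intro g
    refine ⟨(log (v (b.repr y g))).toNat, ?_⟩
    exact le_exp_of_log_le (Int.self_le_toNat _)
  choose c hc using h
  refine ⟨∑ g, c g, fun g => ?_⟩
  rw [neg_neg]
  refine (hc g).trans (exp_le_exp.mpr ?_)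
  exact_mod_cast Finset.single_le_sum (f := c) (fun _ _ => Nat.zero_le _) (Finset.mem_univ g)

theorem latM_eq_zero {y : L} (h : ∀ j : ℕ, y ∈ latM v b (j : ℤ)) : y = 0 := by
  apply b.repr.injective
  ext g
  rw [map_zero, Finsupp.zero_apply]
  by_contra hne
  have hv : v (b.repr y g) ≠ 0 := (Valuation.ne_zero_iff v).mpr hne
  obtain ⟨j, hj⟩ := exists_exp_neg_natCast_lt hv
  exact absurd (h j g) (not_le.mpr hj)

/-- the structure constants are integral -/
def LatMul (v : Valuation k ℤᵐ⁰) (b : Module.Basis ι k L) : Prop :=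
  ∀ g h, b g * b h ∈ latM v b 0

theorem latM_mul_mem (hm : LatMul v b) {i j : ℤ} {y z : L} (hy : y ∈ latM v b i)
    (hz : z ∈ latM v b j) : y * z ∈ latM v b (i + j) := by
  classical
  have := Fintype.ofFinite ι
  rw [← b.sum_repr y, ← b.sum_repr z, Finset.sum_mul_sum]
  refine AddSubgroup.sum_mem _ fun g _ => AddSubgroup.sum_mem _ fun h _ => ?_
  rw [smul_mul_smul_comm]
  have h1 : v (b.repr y g * b.repr z h) ≤ exp (-(i + j)) := by
    rw [map_mul, neg_add, exp_add]
    exact mul_le_mul' (hy g) (hz h)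
  have := latM_smul_mem (b := b) h1 (hm g h)
  rwa [add_zero] at this

theorem latM_pow_mem (hm : LatMul v b) {j : ℤ} {x : L} (hx : x ∈ latM v b j) (N : ℕ) :
    x ^ (N + 1) ∈ latM v b ((N + 1 : ℕ) * j) := by
  induction N with
  | zero => simpa using hx
  | succ N ih =>
    rw [pow_succ]
    have := latM_mul_mem hm ih hx
    convert this using 2
    push_cast; ring

theorem latM_one_add_ne_zero (hm : LatMul v b) {j : ℤ} (hj : 1 ≤ j) {x : L}
    (hx : x ∈ latM v b j) : 1 + x ≠ 0 := by
  intro h0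
  have hx1 : x = -1 := by linear_combination h0
  have h1 : (1 : L) = 0 := by
    apply latM_eq_zero (v := v) (b := b)
    intro N
    have h2 := latM_pow_mem hm hx (2 * N + 1)
    have h3 : x ^ (2 * N + 1 + 1) = 1 := by
      rw [hx1, show 2 * N + 1 + 1 = 2 * (N + 1) by ring, pow_mul]; simp
    rw [h3] at h2
    refine latM_mono ?_ h2
    push_cast
    nlinarith
  exact one_ne_zero h1

theorem latM_inv_sub_one_mem (hm : LatMul v b) {j : ℤ} (hj : 1 ≤ j) {x : L}
    (hx : x ∈ latM v b j) : (1 + x)⁻¹ - 1 ∈ latM v b j := by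
  have hne := latM_one_add_ne_zero hm hj hx
  set u := (1 + x)⁻¹ with hu
  have hu1 : u * (1 + x) = 1 := inv_mul_cancel₀ hne
  have hnx : -x ∈ latM v b j := neg_mem hx
  have key : ∀ N : ℕ, u - 1 - (-x) ^ (N + 1) * u ∈ latM v b j := by
    intro N
    induction N with
    | zero =>
      have : u - 1 - (-x) ^ (0 + 1) * u = 0 := by linear_combination hu1
      rw [this]; exact zero_mem _
    | succ N ih =>
      have e : u - 1 - (-x) ^ (N + 1 + 1) * u
          = (u - 1 - (-x) ^ (N + 1) * u) + (-x) ^ (N + 1) := by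
        have : (-x) ^ (N + 1 + 1) = (-x) ^ (N + 1) * (-x) := pow_succ _ _
        rw [this]
        linear_combination ((-x) ^ (N + 1)) * hu1
      rw [e]
      refine add_mem ih (latM_mono ?_ (latM_pow_mem hm hnx N))
      push_cast
      nlinarith
  obtain ⟨c, hc⟩ := latM_exists_mem (v := v) (b := b) u
  have h1 := latM_mul_mem hm (latM_pow_mem hm hnx c) hc
  have h2 : (-x) ^ (c + 1) * u ∈ latM v b j := by
    refine latM_mono ?_ h1
    push_cast
    nlinarith
  have := add_mem (key c) h2
  simpa using this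

/-- the subgroup `V_j = 1 + M_(j+1)` of `Lˣ` -/
def latV (hm : LatMul v b) (j : ℕ) : Subgroup Lˣ where
  carrier := {u | (u : L) - 1 ∈ latM v b (j + 1)}
  one_mem' := by simp
  mul_mem' := by
    intro x y hx hy
    have hx' : (x : L) - 1 ∈ latM v b (j + 1) := hx
    have hy' : (y : L) - 1 ∈ latM v b (j + 1) := hy
    show ((x * y : Lˣ) : L) - 1 ∈ latM v b (j + 1)
    have e : ((x * y : Lˣ) : L) - 1 = ((x : L) - 1) + ((y : L) - 1) + ((x : L) - 1) * ((y : L) - 1) := by
      push_cast; ring
    rw [e]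
    refine add_mem (add_mem hx' hy') (latM_mono ?_ (latM_mul_mem hm hx' hy'))
    omega
  inv_mem' := by
    intro x hx
    have hx' : (x : L) - 1 ∈ latM v b (j + 1) := hx
    show ((x⁻¹ : Lˣ) : L) - 1 ∈ latM v b (j + 1)
    have := latM_inv_sub_one_mem hm (by omega) hx'
    rwa [add_sub_cancel, ← Units.val_inv_eq_inv_val] at this

theorem mem_latV (hm : LatMul v b) {j : ℕ} {u : Lˣ} :
    u ∈ latV hm j ↔ (u : L) - 1 ∈ latM v b (j + 1) := Iff.rfl

theorem latV_mono (hm : LatMul v b) {i j : ℕ} (h : i ≤ j) : latV hm j ≤ latV hm i := by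
  intro u hu
  exact latM_mono (by omega) hu

/-- `1 + x` as a unit -/
noncomputable def latUnit (hm : LatMul v b) {j : ℤ} (hj : 1 ≤ j) {x : L} (hx : x ∈ latM v b j) : Lˣ :=
  Units.mk0 (1 + x) (latM_one_add_ne_zero hm hj hx)

/-- product expansion -/
theorem latM_prod_one_add (hm : LatMul v b) {i : ℤ} (hi : 0 ≤ i) {κ : Type*} (S : Finset κ)
    (z : κ → L) (hz : ∀ t ∈ S, z t ∈ latM v b i) :
    ∏ t ∈ S, (1 + z t) - 1 - ∑ t ∈ S, z t ∈ latM v b (2 * i) := by
  classical
  induction S using Finset.induction_on with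
  | empty => simp
  | insert a S ha ih =>
    have ih' := ih (fun t ht => hz t (Finset.mem_insert_of_mem ht))
    have hza := hz a (Finset.mem_insert_self a S)
    have hs : ∑ t ∈ S, z t ∈ latM v b i :=
      AddSubgroup.sum_mem _ fun t ht => hz t (Finset.mem_insert_of_mem ht)
    rw [Finset.prod_insert ha, Finset.sum_insert ha]
    set Q := ∏ t ∈ S, (1 + z t) with hQ
    set s := ∑ t ∈ S, z t with hs'
    have e : (1 + z a) * Q - 1 - (z a + s) = (Q - 1 - s) + z a * s + z a * (Q - 1 - s) := by ring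
    rw [e]
    refine add_mem (add_mem ih' ?_) ?_
    · have := latM_mul_mem hm hza hs
      rwa [← two_mul] at this
    · exact latM_mono (by omega) (latM_mul_mem hm hza ih')

end lat

end Fermat.Agent.S55.H.LocNorm
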