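import Fermat.Agent.S55.H.Defs

/-!
# S55, block [H], package H-WA1: weak approximation in `Kˣ` at finitely many finite places
-/

set_option autoImplicit false

namespace Fermat.Agent.S55.H

open NumberField IsDedekindDomain

theorem exists_approx {K : Type*} [Field K] [NumberField K] (T : Finset (Pl K)) (x : Pl K → Kˣ) (n : ℕ) :
    ∃ y : Kˣ, ∀ v ∈ T, y / x v ∈ nearOne v n := by
  classical
  rcases T.eq_empty_or_nonempty with rfl | ⟨v₀, hv₀⟩
  · exact ⟨1, by simp⟩
  -- a common denominator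
  obtain ⟨d, hd⟩ := IsLocalization.exist_integer_multiples_of_finset (nonZeroDivisors (𝓞 K))
    (T.image fun v => ((x v : Kˣ) : K))
  have hd0 : (d : 𝓞 K) ≠ 0 := nonZeroDivisors.coe_ne_zero d
  have hdK : algebraMap (𝓞 K) K (d : 𝓞 K) ≠ 0 := by
    rw [Ne, map_eq_zero_iff _ (IsFractionRing.injective (𝓞 K) K)]
    exact hd0
  have hex : ∀ v : Pl K, ∃ a : 𝓞 K, v ∈ T → algebraMap (𝓞 K) K a
      = algebraMap (𝓞 K) K (d : 𝓞 K) * (x v : K) := by
    intro v
    by_cases hv : v ∈ T
    · obtain ⟨a, ha⟩ := hd _ (Finset.mem_image_of_mem _ hv)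
      exact ⟨a, fun _ => by rw [ha, Algebra.smul_def]⟩
    · exact ⟨0, fun h => absurd h hv⟩
  choose a ha using hex
  have ha0 : ∀ v ∈ T, a v ≠ 0 := by
    intro v hv h0
    have h1 := ha v hv
    rw [h0, map_zero] at h1
    exact mul_ne_zero hdK (x v).ne_zero h1.symm
  -- the valuations of the numerators
  let c : Pl K → ℕ := fun v =>
    (Associates.mk v.asIdeal).count (Associates.mk (Ideal.span {a v} : Ideal (𝓞 K))).factors
  have hc : ∀ v ∈ T, v.intValuation (a v) = WithZero.exp (-(c v : ℤ)) := fun v hv =>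
    v.intValuation_if_neg (ha0 v hv)
  let N : ℕ := n + 1 + T.sup c
  have hcN : ∀ v ∈ T, c v + n + 1 ≤ N := by
    intro v hv
    have : c v ≤ T.sup c := Finset.le_sup hv
    show c v + n + 1 ≤ n + 1 + T.sup c
    omega
  -- Chinese remainder theorem
  obtain ⟨z, hz⟩ := IsDedekindDomain.exists_forall_sub_mem_ideal (s := T)
    (fun v : Pl K => v.asIdeal) (fun _ => N) (fun v _ => v.prime)
    (fun v _ w _ hvw h => hvw (HeightOneSpectrum.ext h)) (fun v => a v)
  have hzv : ∀ v ∈ T, v.intValuation (z - a v) ≤ WithZero.exp (-(N : ℤ)) := fun v hv =>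
    (v.intValuation_le_pow_iff_mem _ _).mpr (hz v hv)
  have hz0 : z ≠ 0 := by
    rintro rfl
    have h1 := hzv v₀ hv₀
    rw [zero_sub, Valuation.map_neg, hc v₀ hv₀, WithZero.exp_le_exp] at h1
    have := hcN v₀ hv₀
    omega
  have hzK : algebraMap (𝓞 K) K z ≠ 0 := by
    rw [Ne, map_eq_zero_iff _ (IsFractionRing.injective (𝓞 K) K)]
    exact hz0
  refine ⟨Units.mk0 (algebraMap (𝓞 K) K z / algebraMap (𝓞 K) K (d : 𝓞 K)) (div_ne_zero hzK hdK),
    fun v hv => ?_⟩
  rw [mem_nearOne_iff]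
  have haK : algebraMap (𝓞 K) K (a v) ≠ 0 := by
    rw [Ne, map_eq_zero_iff _ (IsFractionRing.injective (𝓞 K) K)]
    exact ha0 v hv
  have hxv : (x v : K) ≠ 0 := (x v).ne_zero
  have key : ((Units.mk0 (algebraMap (𝓞 K) K z / algebraMap (𝓞 K) K (d : 𝓞 K))
      (div_ne_zero hzK hdK) / x v : Kˣ) : K) - 1
      = algebraMap (𝓞 K) K (z - a v) / algebraMap (𝓞 K) K (a v) := by
    rw [Units.val_div_eq_div_val, Units.val_mk0, map_sub, ha v hv]
    field_simp
  rw [key, map_div₀, HeightOneSpectrum.valuation_of_algebraMap,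
    HeightOneSpectrum.valuation_of_algebraMap, hc v hv]
  calc v.intValuation (z - a v) / WithZero.exp (-(c v : ℤ))
      ≤ WithZero.exp (-(N : ℤ)) / WithZero.exp (-(c v : ℤ)) := by
        exact div_le_div_of_nonneg_right (hzv v hv) zero_le
    _ = WithZero.exp (-(N : ℤ) - -(c v : ℤ)) := (WithZero.exp_sub _ _).symm
    _ < WithZero.exp (-(n : ℤ)) := by
        rw [WithZero.exp_lt_exp]
        have := hcN v hv
        omega

end Fermat.Agent.S55.H
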